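import Mathlib.FieldTheory.RatFunc.AsPolynomial
import Mathlib.FieldTheory.IsAlgClosed.Basic
import Mathlib.AlgebraicGeometry.EllipticCurve.Affine.AddSubMap

/-!
Degrees of rational functions in one variable and of primitive triples of polynomials,
and the behaviour of the degree under the addition-and-subtraction map of a Weierstrass curve.
-/

noncomputable section

open Polynomial

namespace Fermat.Agent.Isogeny

variable {k : Type*} [Field k]

/-- The degree of a rational function. -/
def hgt (r : RatFunc k) : ℕ := max r.num.natDegree r.denom.natDegree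

/-- Polynomials without common zero. -/
def NoCommonZero {ι : Type*} (P : ι → k[X]) : Prop := ∀ x : k, ∃ i, (P i).eval x ≠ 0

/-- The maximal degree in a triple. -/
def degTriple (P : Fin 3 → k[X]) : ℕ :=
  max (P 0).natDegree (max (P 1).natDegree (P 2).natDegree)

/-- `p` has degree at most `n` with `n`-th coefficient `c`. -/
def HasTop (p : k[X]) (n : ℕ) (c : k) : Prop := p.natDegree ≤ n ∧ p.coeff n = c

lemma HasTop.add {p q : k[X]} {n : ℕ} {c d : k} (hp : HasTop p n c) (hq : HasTop q n d) :
    HasTop (p + q) n (c + d) :=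
  ⟨(natDegree_add_le p q).trans (max_le hp.1 hq.1), by rw [coeff_add, hp.2, hq.2]⟩

lemma HasTop.sub {p q : k[X]} {n : ℕ} {c d : k} (hp : HasTop p n c) (hq : HasTop q n d) :
    HasTop (p - q) n (c - d) :=
  ⟨(natDegree_sub_le p q).trans (max_le hp.1 hq.1), by rw [coeff_sub, hp.2, hq.2]⟩

lemma HasTop.mul {p q : k[X]} {n m : ℕ} {c d : k} (hp : HasTop p n c) (hq : HasTop q m d) :
    HasTop (p * q) (n + m) (c * d) :=
  ⟨natDegree_mul_le.trans (add_le_add hp.1 hq.1), by
    rw [coeff_mul_add_eq_of_natDegree_le hp.1 hq.1, hp.2, hq.2]⟩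

lemma HasTop.C_mul {p : k[X]} {n : ℕ} {c : k} (hp : HasTop p n c) (a : k) :
    HasTop (C a * p) n (a * c) :=
  ⟨(natDegree_C_mul_le a p).trans hp.1, by rw [coeff_C_mul, hp.2]⟩

lemma hasTop_of_le {p : k[X]} {n : ℕ} (h : p.natDegree ≤ n) : HasTop p n (p.coeff n) := ⟨h, rfl⟩

lemma degTriple_eq_of_hasTop {P : Fin 3 → k[X]} {n : ℕ} {c : Fin 3 → k}
    (h : ∀ i, HasTop (P i) n (c i)) (hc : c ≠ 0) : degTriple P = n := by
  refine le_antisymm (max_le (h 0).1 (max_le (h 1).1 (h 2).1)) ?_
  obtain ⟨i, hi⟩ := Function.ne_iff.mp hc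
  have : n ≤ (P i).natDegree := le_natDegree_of_ne_zero (by rw [(h i).2]; exact hi)
  fin_cases i <;> simp_all [degTriple]

lemma denom_coeff_ne_zero_or (r : RatFunc k) :
    r.num.coeff (hgt r) ≠ 0 ∨ r.denom.coeff (hgt r) ≠ 0 := by
  rcases le_total r.num.natDegree r.denom.natDegree with h | h
  · right
    rw [hgt, max_eq_right h]
    exact leadingCoeff_ne_zero.mpr r.denom_ne_zero
  · rcases eq_or_ne r.num 0 with h0 | h0
    · right
      rw [h0, natDegree_zero, Nat.le_zero] at h
      rw [hgt, h0, natDegree_zero, h, max_self, ← h]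
      exact leadingCoeff_ne_zero.mpr r.denom_ne_zero
    · left
      rw [hgt, max_eq_left h]
      exact leadingCoeff_ne_zero.mpr h0

lemma num_denom_eval (r : RatFunc k) (x : k) :
    ¬(r.num.eval x = 0 ∧ r.denom.eval x = 0) := by
  rintro ⟨h1, h2⟩
  obtain ⟨u, v, huv⟩ := r.isCoprime_num_denom
  simpa [h1, h2] using congrArg (Polynomial.eval x) huv

lemma mul_denom_eq_num (r : RatFunc k) :
    r * algebraMap k[X] (RatFunc k) r.denom = algebraMap k[X] (RatFunc k) r.num := by
  nth_rw 1 [← r.num_div_denom]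
  exact div_mul_cancel₀ _ (by simpa using r.denom_ne_zero)

variable [IsAlgClosed k]

lemma natDegree_eq_zero_of_no_root {p : k[X]} (h : ∀ x, p.eval x ≠ 0) : p.natDegree = 0 := by
  by_contra h0
  obtain ⟨x, hx⟩ := IsAlgClosed.exists_root p
    (fun hd => h0 (natDegree_eq_zero_iff_degree_le_zero.mpr hd.le))
  exact h x hx

/-- Two proportional families without common zeros have the same degrees. -/
lemma natDegree_eq_of_proportional {ι : Type*} {P Q : ι → k[X]} (hP : NoCommonZero P)
    (hQ : NoCommonZero Q) (r : RatFunc k)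
    (hrel : ∀ i, algebraMap k[X] (RatFunc k) (P i) = r * algebraMap k[X] (RatFunc k) (Q i))
    (i : ι) : (P i).natDegree = (Q i).natDegree := by
  have key : ∀ j, r.denom * P j = r.num * Q j := fun j => by
    apply RatFunc.algebraMap_injective (K := k)
    rw [map_mul, map_mul, hrel j, ← mul_denom_eq_num r]
    ring
  have hd : ∀ x, r.denom.eval x ≠ 0 := fun x hx => by
    obtain ⟨j, hj⟩ := hQ x
    have := congrArg (Polynomial.eval x) (key j)
    rw [eval_mul, eval_mul, hx, zero_mul, eq_comm, mul_eq_zero] at this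
    rcases this with h | h
    · exact num_denom_eval r x ⟨h, hx⟩
    · exact hj h
  have hn : ∀ x, r.num.eval x ≠ 0 := fun x hx => by
    obtain ⟨j, hj⟩ := hP x
    have := congrArg (Polynomial.eval x) (key j)
    rw [eval_mul, eval_mul, hx, zero_mul, mul_eq_zero] at this
    rcases this with h | h
    · exact hd x h
    · exact hj h
  have hd0 := eq_C_of_natDegree_eq_zero (natDegree_eq_zero_of_no_root hd)
  have hn0 := eq_C_of_natDegree_eq_zero (natDegree_eq_zero_of_no_root hn)
  have hd1 : r.denom.coeff 0 ≠ 0 := by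
    intro h; rw [h, C_0] at hd0; exact r.denom_ne_zero hd0
  have hn1 : r.num.coeff 0 ≠ 0 := by
    intro h; rw [h, C_0] at hn0; exact hn 0 (by rw [hn0, eval_zero])
  have := congrArg natDegree (key i)
  rwa [hd0, hn0, natDegree_C_mul hd1, natDegree_C_mul hn1] at this

lemma hgt_eq_of_pair {A B : k[X]} (hAB : ∀ x : k, ¬(A.eval x = 0 ∧ B.eval x = 0)) {r : RatFunc k}
    (hr : r * algebraMap k[X] (RatFunc k) B = algebraMap k[X] (RatFunc k) A) :
    hgt r = max A.natDegree B.natDegree := by
  have hne : algebraMap k[X] (RatFunc k) r.denom ≠ 0 := by simpa using r.denom_ne_zero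
  have hAB' : NoCommonZero ![A, B] := fun x => by
    rcases not_and_or.mp (hAB x) with h | h
    · exact ⟨0, h⟩
    · exact ⟨1, h⟩
  have hr' : NoCommonZero ![r.num, r.denom] := fun x => by
    rcases not_and_or.mp (num_denom_eval r x) with h | h
    · exact ⟨0, h⟩
    · exact ⟨1, h⟩
  have hrel := natDegree_eq_of_proportional hAB' hr'
    (algebraMap k[X] (RatFunc k) B / algebraMap k[X] (RatFunc k) r.denom) ?_
  · have h0 : A.natDegree = r.num.natDegree := hrel 0
    have h1 : B.natDegree = r.denom.natDegree := hrel 1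
    rw [hgt, h0, h1]
  · intro i
    fin_cases i
    · change algebraMap k[X] (RatFunc k) A = _ * algebraMap k[X] (RatFunc k) r.num
      rw [← hr, ← mul_denom_eq_num r]
      field_simp
    · change algebraMap k[X] (RatFunc k) B = _ * algebraMap k[X] (RatFunc k) r.denom
      field_simp

lemma hgt_pow (r : RatFunc k) (n : ℕ) : hgt (r ^ n) = n * hgt r := by
  rw [hgt_eq_of_pair (A := r.num ^ n) (B := r.denom ^ n) ?_ ?_]
  · rw [natDegree_pow, natDegree_pow, hgt, Nat.mul_max_mul_left]
  · intro x h
    simp only [eval_pow] at h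
    exact num_denom_eval r x ⟨eq_zero_of_pow_eq_zero h.1, eq_zero_of_pow_eq_zero h.2⟩
  · rw [map_pow, map_pow, ← mul_pow, mul_denom_eq_num]

omit [IsAlgClosed k] in
lemma hgt_X : hgt (RatFunc.X : RatFunc k) = 1 := by simp [hgt]

omit [IsAlgClosed k] in
lemma exists_eq_C_of_hgt_eq_zero {r : RatFunc k} (h : hgt r = 0) : ∃ c, r = RatFunc.C c := by
  obtain ⟨hn, hd⟩ : r.num.natDegree = 0 ∧ r.denom.natDegree = 0 := by unfold hgt at h; omega
  refine ⟨r.num.coeff 0, ?_⟩
  have hd1 : r.denom = 1 := eq_one_of_monic_natDegree_zero r.monic_denom hd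
  have hr := mul_denom_eq_num r
  rw [hd1, map_one, mul_one] at hr
  rw [← RatFunc.algebraMap_C, ← eq_C_of_natDegree_eq_zero hn]
  exact hr

/-! ### The symmetric square and the addition-and-subtraction map -/

/-- The three quadratic forms of the addition-and-subtraction map. -/
def addSubVec {R : Type*} [CommRing R] (W : WeierstrassCurve R) (s t u : R) : Fin 3 → R :=
  ![s * s - W.b₄ * (s * u) - W.b₆ * (t * u) - W.b₈ * (u * u),
    2 * (t * s) + W.b₂ * (s * u) + W.b₄ * (t * u) + W.b₆ * (u * u),
    t * t - 4 * (s * u)]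

omit [IsAlgClosed k] in
lemma addSubVec_map {R S : Type*} [CommRing R] [CommRing S] (f : R →+* S)
    (W : WeierstrassCurve R) (s t u : R) (i : Fin 3) :
    addSubVec (W.map f) (f s) (f t) (f u) i = f (addSubVec W s t u i) := by
  fin_cases i <;> simp [addSubVec, map_ofNat]

omit [IsAlgClosed k] in
lemma addSubVec_smul {R : Type*} [CommRing R] (W : WeierstrassCurve R) (c s t u : R) (i : Fin 3) :
    addSubVec W (c * s) (c * t) (c * u) i = c ^ 2 * addSubVec W s t u i := by
  fin_cases i <;> simp [addSubVec] <;> ring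

omit [IsAlgClosed k] in
lemma addSubVec_ne_zero (W : WeierstrassCurve k) [W.IsElliptic] {s t u : k}
    (h : ![s, t, u] ≠ 0) : addSubVec W s t u ≠ 0 := by
  intro h0
  apply W.addSubMap_ne_zero h
  funext i
  have := congrFun h0 i
  fin_cases i <;>
    simp [addSubVec, WeierstrassCurve.addSubMap] at this ⊢ <;> linear_combination this

/-- The symmetric product triple of two rational functions. -/
def symTriple (r s : RatFunc k) : Fin 3 → k[X] :=
  ![r.num * s.num, r.num * s.denom + r.denom * s.num, r.denom * s.denom]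

omit [IsAlgClosed k] in
lemma symTriple_eval_ne_zero {a b c d : k} (h1 : ¬(a = 0 ∧ b = 0)) (h2 : ¬(c = 0 ∧ d = 0)) :
    ![a * c, a * d + b * c, b * d] ≠ (0 : Fin 3 → k) := by
  intro h
  have h0 : a * c = 0 := congrFun h 0
  have h1' : a * d + b * c = 0 := congrFun h 1
  have h2' : b * d = 0 := congrFun h 2
  rcases eq_or_ne a 0 with ha | ha
  · have hb : b ≠ 0 := fun hb => h1 ⟨ha, hb⟩
    exact h2 ⟨(mul_eq_zero.mp (by simpa [ha] using h1')).resolve_left hb,
      (mul_eq_zero.mp h2').resolve_left hb⟩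
  · have hc : c = 0 := (mul_eq_zero.mp h0).resolve_left ha
    exact h2 ⟨hc, (mul_eq_zero.mp (by simpa [hc] using h1')).resolve_left ha⟩

omit [IsAlgClosed k] in
lemma noCommonZero_symTriple (r s : RatFunc k) : NoCommonZero (symTriple r s) := fun x => by
  obtain ⟨i, hi⟩ := Function.ne_iff.mp
    (symTriple_eval_ne_zero (num_denom_eval r x) (num_denom_eval s x))
  exact ⟨i, by fin_cases i <;> simpa [symTriple] using hi⟩

omit [IsAlgClosed k] in
lemma exists_hasTop_symTriple (r s : RatFunc k) :
    ∃ c : Fin 3 → k, c ≠ 0 ∧ ∀ i, HasTop (symTriple r s i) (hgt r + hgt s) (c i) := by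
  have ha := hasTop_of_le (p := r.num) (n := hgt r) (le_max_left _ _)
  have hb := hasTop_of_le (p := r.denom) (n := hgt r) (le_max_right _ _)
  have hc := hasTop_of_le (p := s.num) (n := hgt s) (le_max_left _ _)
  have hd := hasTop_of_le (p := s.denom) (n := hgt s) (le_max_right _ _)
  refine ⟨_, symTriple_eval_ne_zero (not_and_or.mpr (denom_coeff_ne_zero_or r))
    (not_and_or.mpr (denom_coeff_ne_zero_or s)), fun i => ?_⟩
  fin_cases i
  · exact ha.mul hc
  · exact (ha.mul hd).add (hb.mul hc)
  · exact hb.mul hd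

omit [IsAlgClosed k] in
lemma degTriple_symTriple (r s : RatFunc k) : degTriple (symTriple r s) = hgt r + hgt s := by
  obtain ⟨c, hc, h⟩ := exists_hasTop_symTriple r s
  exact degTriple_eq_of_hasTop h hc

omit [IsAlgClosed k] in
lemma algebraMap_symTriple (r s : RatFunc k) (i : Fin 3) :
    algebraMap k[X] (RatFunc k) (symTriple r s i) =
      algebraMap k[X] (RatFunc k) (r.denom * s.denom) * ![r * s, r + s, 1] i := by
  fin_cases i <;> simp [symTriple, map_mul, map_add, ← mul_denom_eq_num] <;> ring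

/-- The image of the symmetric triple under the addition-and-subtraction map. -/
def addSubTriple (W : WeierstrassCurve k) (r s : RatFunc k) : Fin 3 → k[X] :=
  addSubVec (W.map C) (symTriple r s 0) (symTriple r s 1) (symTriple r s 2)

omit [IsAlgClosed k] in
lemma noCommonZero_addSubTriple (W : WeierstrassCurve k) [W.IsElliptic] (r s : RatFunc k) :
    NoCommonZero (addSubTriple W r s) := fun x => by
  have hv : ![(symTriple r s 0).eval x, (symTriple r s 1).eval x, (symTriple r s 2).eval x]
      ≠ 0 := by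
    obtain ⟨i, hi⟩ := noCommonZero_symTriple r s x
    intro h
    have := congrFun h i
    fin_cases i <;> exact hi this
  obtain ⟨i, hi⟩ := Function.ne_iff.mp (addSubVec_ne_zero W hv)
  refine ⟨i, fun h => hi ?_⟩
  fin_cases i <;> simpa [addSubTriple, addSubVec] using h

omit [IsAlgClosed k] in
lemma degTriple_addSubTriple (W : WeierstrassCurve k) [W.IsElliptic] (r s : RatFunc k) :
    degTriple (addSubTriple W r s) = 2 * (hgt r + hgt s) := by
  obtain ⟨c, hc, h⟩ := exists_hasTop_symTriple r s
  have hc' : ![c 0, c 1, c 2] ≠ 0 := by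
    intro h'
    apply hc
    funext i
    fin_cases i
    · exact congrFun h' 0
    · exact congrFun h' 1
    · exact congrFun h' 2
  rw [two_mul]
  refine degTriple_eq_of_hasTop (fun i => ?_) (addSubVec_ne_zero W hc')
  fin_cases i
  · simpa [addSubTriple, addSubVec] using
      ((((h 0).mul (h 0)).sub (((h 0).mul (h 2)).C_mul W.b₄)).sub
        (((h 1).mul (h 2)).C_mul W.b₆)).sub (((h 2).mul (h 2)).C_mul W.b₈)
  · simpa [addSubTriple, addSubVec, C_ofNat] using
      (((((h 1).mul (h 0)).C_mul 2).add (((h 0).mul (h 2)).C_mul W.b₂)).add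
        (((h 1).mul (h 2)).C_mul W.b₄)).add (((h 2).mul (h 2)).C_mul W.b₆)
  · simpa [addSubTriple, addSubVec, C_ofNat] using
      ((h 1).mul (h 1)).sub (((h 0).mul (h 2)).C_mul 4)

omit [IsAlgClosed k] in
lemma algebraMap_addSubTriple (W : WeierstrassCurve k) (r s : RatFunc k) (i : Fin 3) :
    algebraMap k[X] (RatFunc k) (addSubTriple W r s i) =
      algebraMap k[X] (RatFunc k) (r.denom * s.denom) ^ 2 *
        addSubVec (W.map (algebraMap k (RatFunc k))) (r * s) (r + s) 1 i := by
  have hmap : (W.map C).map (algebraMap k[X] (RatFunc k)) = W.map (algebraMap k (RatFunc k)) := by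
    rw [WeierstrassCurve.map_map]; rfl
  rw [addSubTriple, ← addSubVec_map, hmap, algebraMap_symTriple, algebraMap_symTriple,
    algebraMap_symTriple, ← addSubVec_smul]
  rfl

/-- Key degree identity: if the symmetric square of `(r₃, r₄)` is the image of that of `(r₁, r₂)`,
the degrees satisfy the parallelogram law. -/
lemma hgt_add_hgt_eq (W : WeierstrassCurve k) [W.IsElliptic] {r₁ r₂ r₃ r₄ : RatFunc k}
    (h2 : addSubVec (W.map (algebraMap k (RatFunc k))) (r₁ * r₂) (r₁ + r₂) 1 2 ≠ 0)
    (h1 : (r₃ + r₄) * addSubVec (W.map (algebraMap k (RatFunc k))) (r₁ * r₂) (r₁ + r₂) 1 2 =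
      addSubVec (W.map (algebraMap k (RatFunc k))) (r₁ * r₂) (r₁ + r₂) 1 1)
    (h0 : r₃ * r₄ * addSubVec (W.map (algebraMap k (RatFunc k))) (r₁ * r₂) (r₁ + r₂) 1 2 =
      addSubVec (W.map (algebraMap k (RatFunc k))) (r₁ * r₂) (r₁ + r₂) 1 0) :
    hgt r₃ + hgt r₄ = 2 * (hgt r₁ + hgt r₂) := by
  have hU : algebraMap k[X] (RatFunc k) (r₁.denom * r₂.denom) ≠ 0 := by
    simp [r₁.denom_ne_zero, r₂.denom_ne_zero]
  have hrel := natDegree_eq_of_proportional (noCommonZero_symTriple r₃ r₄)
    (noCommonZero_addSubTriple W r₁ r₂)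
    (algebraMap k[X] (RatFunc k) (r₃.denom * r₄.denom) /
      (algebraMap k[X] (RatFunc k) (r₁.denom * r₂.denom) ^ 2 *
        addSubVec (W.map (algebraMap k (RatFunc k))) (r₁ * r₂) (r₁ + r₂) 1 2))
  rw [← degTriple_addSubTriple W r₁ r₂, ← degTriple_symTriple r₃ r₄]
  have := hrel fun i => by
    rw [algebraMap_symTriple, algebraMap_addSubTriple]
    generalize algebraMap k[X] (RatFunc k) (r₃.denom * r₄.denom) = U'
    fin_cases i
    · simp only [Fin.zero_eta, Matrix.cons_val_zero]
      rw [← h0]; field_simp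
    · simp only [Fin.mk_one, Matrix.cons_val_one, Matrix.cons_val_zero]
      rw [← h1]; field_simp
    · simp only [Fin.reduceFinMk, Matrix.cons_val]
      field_simp
  rw [degTriple, degTriple, this 0, this 1, this 2]

/-- Degree of the duplication. -/
lemma hgt_dup (W : WeierstrassCurve k) [W.IsElliptic] (r : RatFunc k) :
    ((addSubVec (W.map (algebraMap k (RatFunc k))) (r * r) (r + r) 1 1 = 0 → hgt r = 0) ∧
    (∀ r' : RatFunc k, r' * addSubVec (W.map (algebraMap k (RatFunc k))) (r * r) (r + r) 1 1 =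
      addSubVec (W.map (algebraMap k (RatFunc k))) (r * r) (r + r) 1 0 →
      hgt r' = 4 * hgt r)) := by
  have hF2 : addSubTriple W r r 2 = 0 := by
    apply RatFunc.algebraMap_injective (K := k)
    rw [algebraMap_addSubTriple, map_zero]
    simp only [addSubVec, Matrix.cons_val]
    ring
  have hdeg := degTriple_addSubTriple W r r
  rw [degTriple, hF2, natDegree_zero] at hdeg
  have hno : ∀ x, ¬((addSubTriple W r r 0).eval x = 0 ∧ (addSubTriple W r r 1).eval x = 0) := by
    rintro x ⟨h0, h1⟩
    obtain ⟨i, hi⟩ := noCommonZero_addSubTriple W r r x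
    fin_cases i
    · exact hi h0
    · exact hi h1
    · exact hi (by rw [show (⟨2, _⟩ : Fin 3) = 2 from rfl, hF2, eval_zero])
  refine ⟨fun h1 => ?_, fun r' hr' => ?_⟩
  · have h1' : addSubTriple W r r 1 = 0 := by
      apply RatFunc.algebraMap_injective (K := k)
      rw [algebraMap_addSubTriple, h1, mul_zero, map_zero]
    rw [h1', natDegree_zero, max_self, Nat.max_zero,
      natDegree_eq_zero_of_no_root fun x hx => hno x ⟨hx, by rw [h1', eval_zero]⟩] at hdeg
    omega
  · rw [hgt_eq_of_pair hno]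
    · rw [Nat.max_zero] at hdeg; omega
    · rw [algebraMap_addSubTriple, algebraMap_addSubTriple, ← hr']
      ring

end Fermat.Agent.Isogeny
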