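import Mathlib.Algebra.QuadraticAlgebra.Basic
import Mathlib.AlgebraicGeometry.EllipticCurve.Affine.Point
import Fermat.Agent.EC.Isogeny.Height

/-!
Points of an elliptic curve over its own function field `k(x)[y]`, the degree of their
`x`-coordinate, and the exact parallelogram law for it.
-/

noncomputable section

open Polynomial WeierstrassCurve

namespace Fermat.Agent.Isogeny

variable {k : Type*} [Field k]

section identities

variable {K : Type*} [Field K] [DecidableEq K] (V : WeierstrassCurve K)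

lemma addX_add_addX_neg {x₁ x₂ y₁ y₂ : K} (h₁ : V.toAffine.Equation x₁ y₁)
    (h₂ : V.toAffine.Equation x₂ y₂) (hx : x₁ ≠ x₂) :
    (V.toAffine.addX x₁ x₂ (V.toAffine.slope x₁ x₂ y₁ y₂) +
        V.toAffine.addX x₁ x₂ (V.toAffine.slope x₁ x₂ y₁ (V.toAffine.negY x₂ y₂))) *
        addSubVec V (x₁ * x₂) (x₁ + x₂) 1 2 = addSubVec V (x₁ * x₂) (x₁ + x₂) 1 1 := by
  rw [Affine.equation_iff] at h₁ h₂
  have hd : x₁ - x₂ ≠ 0 := sub_ne_zero.mpr hx
  simp only [Affine.slope_of_X_ne hx, Affine.addX, Affine.negY, addSubVec, WeierstrassCurve.b₂,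
    WeierstrassCurve.b₄, WeierstrassCurve.b₆, Matrix.cons_val]
  field_simp
  linear_combination (2 * (x₁ - x₂) ^ 2) * h₁ + (2 * (x₁ - x₂) ^ 2) * h₂

lemma addX_mul_addX_neg {x₁ x₂ y₁ y₂ : K} (h₁ : V.toAffine.Equation x₁ y₁)
    (h₂ : V.toAffine.Equation x₂ y₂) (hx : x₁ ≠ x₂) :
    V.toAffine.addX x₁ x₂ (V.toAffine.slope x₁ x₂ y₁ y₂) *
        V.toAffine.addX x₁ x₂ (V.toAffine.slope x₁ x₂ y₁ (V.toAffine.negY x₂ y₂)) *
        addSubVec V (x₁ * x₂) (x₁ + x₂) 1 2 = addSubVec V (x₁ * x₂) (x₁ + x₂) 1 0 := by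
  rw [Affine.equation_iff] at h₁ h₂
  obtain ⟨d, rfl⟩ : ∃ d, x₁ = x₂ + d := ⟨x₁ - x₂, by ring⟩
  have hd : d ≠ 0 := by simpa using hx
  simp only [Affine.slope_of_X_ne hx, Affine.addX, Affine.negY, addSubVec, WeierstrassCurve.b₂,
    WeierstrassCurve.b₄, WeierstrassCurve.b₆, WeierstrassCurve.b₈, Matrix.cons_val]
  rw [add_sub_cancel_left]
  have key : ∀ A : K, (A / d) ^ 2 + V.a₁ * (A / d) - V.a₂ - (x₂ + d) - x₂ =
      (A ^ 2 + V.a₁ * d * A - (V.a₂ + (x₂ + d) + x₂) * d ^ 2) / d ^ 2 := fun A => by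
    field_simp; ring
  rw [key, key, div_mul_div_comm, div_mul_eq_mul_div, div_eq_iff (by simp [hd])]
  linear_combination d ^ 2 *
    ((((y₁ ^ 2 + V.a₁ * (x₂ + d) * y₁ + V.a₃ * y₁) - (y₂ ^ 2 + V.a₁ * x₂ * y₂ + V.a₃ * y₂)
      + ((x₂ + d) ^ 3 + V.a₂ * (x₂ + d) ^ 2 + V.a₄ * (x₂ + d) + V.a₆)
      - (x₂ ^ 3 + V.a₂ * x₂ ^ 2 + V.a₄ * x₂ + V.a₆))
      + V.a₁ * d * (V.a₁ * x₂ + V.a₃) - 2 * (V.a₂ + (x₂ + d) + x₂) * d ^ 2) * h₁ +
    (-((y₁ ^ 2 + V.a₁ * (x₂ + d) * y₁ + V.a₃ * y₁) - (y₂ ^ 2 + V.a₁ * x₂ * y₂ + V.a₃ * y₂)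
      + ((x₂ + d) ^ 3 + V.a₂ * (x₂ + d) ^ 2 + V.a₄ * (x₂ + d) + V.a₆)
      - (x₂ ^ 3 + V.a₂ * x₂ ^ 2 + V.a₄ * x₂ + V.a₆))
      - V.a₁ * d * (V.a₁ * x₂ + V.a₃) - V.a₁ ^ 2 * d ^ 2
      - 2 * (V.a₂ + (x₂ + d) + x₂) * d ^ 2) * h₂)

omit [DecidableEq K] in
lemma addSubVec_diag_one {x y : K} (h : V.toAffine.Equation x y) :
    addSubVec V (x * x) (x + x) 1 1 = (y - V.toAffine.negY x y) ^ 2 := by
  rw [Affine.equation_iff] at h
  simp only [Affine.negY, addSubVec, WeierstrassCurve.b₂, WeierstrassCurve.b₄,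
    WeierstrassCurve.b₆, Matrix.cons_val]
  linear_combination -4 * h

lemma addX_dup {x y : K} (h : V.toAffine.Equation x y) (hy : y ≠ V.toAffine.negY x y) :
    V.toAffine.addX x x (V.toAffine.slope x x y y) * addSubVec V (x * x) (x + x) 1 1 =
      addSubVec V (x * x) (x + x) 1 0 := by
  have hne : y - V.toAffine.negY x y ≠ 0 := sub_ne_zero.mpr hy
  rw [addSubVec_diag_one V h, Affine.slope_of_Y_ne rfl hy]
  rw [Affine.equation_iff] at h
  simp only [Affine.addX, addSubVec, WeierstrassCurve.b₄,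
    WeierstrassCurve.b₆, WeierstrassCurve.b₈, Matrix.cons_val]
  field_simp
  simp only [Affine.negY]
  linear_combination (-V.a₁ ^ 2 - 4 * (V.a₂ + 2 * x)) * h

end identities

variable (W : WeierstrassCurve k)

/-- Constant term of the equation of the function field. -/
def alphaL : RatFunc k :=
  RatFunc.X ^ 3 + RatFunc.C W.a₂ * RatFunc.X ^ 2 + RatFunc.C W.a₄ * RatFunc.X + RatFunc.C W.a₆

/-- Linear term of the equation of the function field. -/
def betaL : RatFunc k := -(RatFunc.C W.a₁ * RatFunc.X + RatFunc.C W.a₃)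

/-- The function field `k(x)[y]` of `W`. -/
abbrev FF := QuadraticAlgebra (RatFunc k) (alphaL W) (betaL W)

lemma alphaL_ne_quadratic (r : RatFunc k) : r ^ 2 ≠ alphaL W + betaL W * r := by
  intro h
  have hint : IsIntegral k[X] r := by
    refine ⟨Polynomial.X ^ 2 +
      Polynomial.C (Polynomial.C W.a₁ * X + Polynomial.C W.a₃) * Polynomial.X
      - Polynomial.C (X ^ 3 + Polynomial.C W.a₂ * X ^ 2 + Polynomial.C W.a₄ * X
        + Polynomial.C W.a₆), by monicity!, ?_⟩
    simp only [eval₂_sub, eval₂_add, eval₂_mul, eval₂_pow, eval₂_X, eval₂_C, map_add, map_mul,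
      map_pow, RatFunc.algebraMap_C, RatFunc.algebraMap_X]
    rw [alphaL, betaL] at h
    linear_combination h
  obtain ⟨p, rfl⟩ := IsIntegrallyClosed.isIntegral_iff.mp hint
  have h' : p ^ 2 + (Polynomial.C W.a₁ * X + Polynomial.C W.a₃) * p
      - (X ^ 3 + Polynomial.C W.a₂ * X ^ 2 + Polynomial.C W.a₄ * X + Polynomial.C W.a₆) = 0 := by
    apply RatFunc.algebraMap_injective (K := k)
    simp only [map_sub, map_add, map_mul, map_pow, map_zero, RatFunc.algebraMap_C,
      RatFunc.algebraMap_X]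
    rw [alphaL, betaL] at h
    linear_combination h
  rcases Nat.lt_or_ge 1 p.natDegree with hp | hp
  · have h2 := congrArg (fun q => q.coeff (2 * p.natDegree)) h'
    have hlt1 : ((Polynomial.C W.a₁ * X + Polynomial.C W.a₃) * p).coeff (2 * p.natDegree) = 0 := by
      apply coeff_eq_zero_of_natDegree_lt
      have := natDegree_mul_le (p := Polynomial.C W.a₁ * X + Polynomial.C W.a₃) (q := p)
      have := natDegree_linear_le (a := W.a₁) (b := W.a₃)
      omega
    have hlt2 : (X ^ 3 + Polynomial.C W.a₂ * X ^ 2 + Polynomial.C W.a₄ * X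
        + Polynomial.C W.a₆).coeff (2 * p.natDegree) = 0 := by
      apply coeff_eq_zero_of_natDegree_lt
      have : (X ^ 3 + Polynomial.C W.a₂ * X ^ 2 + Polynomial.C W.a₄ * X
        + Polynomial.C W.a₆).natDegree ≤ 3 := by compute_degree
      omega
    simp only [coeff_sub, coeff_add, hlt1, hlt2, coeff_zero, sub_zero, add_zero] at h2
    rw [coeff_pow_of_natDegree_le (n := p.natDegree) le_rfl, coeff_natDegree] at h2
    exact leadingCoeff_ne_zero.mpr (by rintro rfl; simp at hp)
      (pow_eq_zero_iff two_ne_zero |>.mp h2)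
  · have h2 := congrArg (fun q => q.coeff 3) h'
    have h31 : (p ^ 2).coeff 3 = 0 := coeff_eq_zero_of_natDegree_lt (by
      have := natDegree_pow_le (p := p) (n := 2); omega)
    have h32 : ((Polynomial.C W.a₁ * X + Polynomial.C W.a₃) * p).coeff 3 = 0 := by
      apply coeff_eq_zero_of_natDegree_lt
      have := natDegree_mul_le (p := Polynomial.C W.a₁ * X + Polynomial.C W.a₃) (q := p)
      have := natDegree_linear_le (a := W.a₁) (b := W.a₃)
      omega
    simp only [coeff_sub, coeff_add, h31, h32, coeff_zero] at h2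
    simp [coeff_X_pow, coeff_C_mul] at h2

instance instFactIrreducibleFF : Fact (∀ r : RatFunc k, r ^ 2 ≠ alphaL W + betaL W * r) :=
  ⟨alphaL_ne_quadratic W⟩

instance instDecidableEqFF : DecidableEq (FF W) := Classical.decEq _

/-- The coordinate function `x`. -/
def xF : FF W := algebraMap (RatFunc k) (FF W) RatFunc.X

/-- The coordinate function `y`. -/
def yF : FF W := QuadraticAlgebra.omega

lemma algebraMap_FF_eq (c : k) :
    algebraMap k (FF W) c = algebraMap (RatFunc k) (FF W) (RatFunc.C c) := rfl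

lemma yF_mul_self : yF W * yF W = algebraMap (RatFunc k) (FF W) (alphaL W) +
    algebraMap (RatFunc k) (FF W) (betaL W) * yF W :=
  QuadraticAlgebra.omega_mul_omega_eq_algebraMap

lemma star_omega_eq {R : Type*} [CommRing R] {a b : R} :
    star (QuadraticAlgebra.omega : QuadraticAlgebra R a b) =
      algebraMap R _ b - QuadraticAlgebra.omega := by
  ext <;> simp [QuadraticAlgebra.algebraMap_eq]

lemma equation_generic : (W⁄(FF W)).toAffine.Equation (xF W) (yF W) := by
  rw [Affine.equation_iff]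
  simp only [WeierstrassCurve.baseChange, WeierstrassCurve.map_a₁, WeierstrassCurve.map_a₂,
    WeierstrassCurve.map_a₃, WeierstrassCurve.map_a₄, WeierstrassCurve.map_a₆, algebraMap_FF_eq,
    xF]
  have ha : algebraMap (RatFunc k) (FF W) (alphaL W) = algebraMap (RatFunc k) (FF W)
    (RatFunc.X ^ 3 + RatFunc.C W.a₂ * RatFunc.X ^ 2 + RatFunc.C W.a₄ * RatFunc.X +
      RatFunc.C W.a₆) := rfl
  have hb : algebraMap (RatFunc k) (FF W) (betaL W) = algebraMap (RatFunc k) (FF W)
    (-(RatFunc.C W.a₁ * RatFunc.X + RatFunc.C W.a₃)) := rfl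
  have h := yF_mul_self W
  rw [ha, hb, map_neg] at h
  simp only [map_add, map_mul, map_pow] at h
  linear_combination h

variable [W.IsElliptic]

lemma nonsingular_generic : (W⁄(FF W)).toAffine.Nonsingular (xF W) (yF W) :=
  (Affine.equation_iff_nonsingular_of_Δ_ne_zero (by
    change (W⁄(FF W)).Δ ≠ 0
    rw [WeierstrassCurve.baseChange, WeierstrassCurve.map_Δ]
    simpa using W.isUnit_Δ.ne_zero)).mp (equation_generic W)

/-- The generic point. -/
def genPt : (W⁄(FF W)).toAffine.Point := .some _ _ (nonsingular_generic W)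

omit [W.IsElliptic] in
/-- The conjugation of the function field over `k(x)`. -/
def conjFF : FF W →ₐ[k] FF W where
  toRingHom := starRingEnd (FF W)
  commutes' c := by ext <;> simp [algebraMap_FF_eq, starRingEnd_apply]

omit [W.IsElliptic] in
@[simp] lemma conjFF_apply (z : FF W) : conjFF W z = star z := rfl

omit [W.IsElliptic] in
/-- Points on which conjugation acts as negation. -/
def oddPts : AddSubgroup (W⁄(FF W)).toAffine.Point :=
  (Affine.Point.map (W' := W.toAffine) (conjFF W) + AddMonoidHom.id _).ker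

omit [W.IsElliptic] in
lemma mem_oddPts {P : (W⁄(FF W)).toAffine.Point} :
    P ∈ oddPts W ↔ Affine.Point.map (W' := W.toAffine) (conjFF W) P = -P := by
  rw [oddPts, AddMonoidHom.mem_ker, AddMonoidHom.add_apply, AddMonoidHom.id_apply,
    add_eq_zero_iff_eq_neg]

lemma genPt_mem : genPt W ∈ oddPts W := by
  rw [mem_oddPts, genPt, Affine.Point.map_some, Affine.Point.neg_some, Affine.Point.some.injEq]
  refine ⟨by ext <;> simp [xF], ?_⟩
  have hb : algebraMap (RatFunc k) (FF W) (betaL W) = algebraMap (RatFunc k) (FF W)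
    (-(RatFunc.C W.a₁ * RatFunc.X + RatFunc.C W.a₃)) := rfl
  change star (QuadraticAlgebra.omega : FF W) = _
  rw [star_omega_eq, hb, map_neg]
  simp only [map_add, map_mul]
  simp only [Affine.negY, WeierstrassCurve.baseChange, WeierstrassCurve.map_a₁,
    WeierstrassCurve.map_a₃, algebraMap_FF_eq, xF, yF]
  ring

lemma betaL_ne_zero_or : betaL W ≠ 0 ∨ (2 : RatFunc k) ≠ 0 := by
  by_contra! h
  obtain ⟨hb, h2⟩ := h
  have h2k : (2 : k) = 0 := by
    apply (algebraMap k (RatFunc k)).injective; simpa [map_ofNat] using h2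
  have h' : Polynomial.C W.a₁ * X + Polynomial.C W.a₃ = 0 := by
    apply RatFunc.algebraMap_injective (K := k)
    simpa [RatFunc.algebraMap_C] using neg_eq_zero.mp hb
  have ha1 : W.a₁ = 0 := by simpa [coeff_C_mul, coeff_X, coeff_C] using congrArg (coeff · 1) h'
  have ha3 : W.a₃ = 0 := by simpa [coeff_C_mul, coeff_X, coeff_C] using congrArg (coeff · 0) h'
  apply W.isUnit_Δ.ne_zero
  simp only [WeierstrassCurve.Δ, WeierstrassCurve.b₂, WeierstrassCurve.b₄, WeierstrassCurve.b₆,
    WeierstrassCurve.b₈, ha1, ha3]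
  rw [show (4 : k) = 2 * 2 by norm_num, h2k]
  ring_nf

lemma eq_algebraMap_of_star_eq {z : FF W} (h : star z = z) :
    z = algebraMap (RatFunc k) (FF W) z.re := by
  have him : z.im = 0 := by
    have h1 := congrArg QuadraticAlgebra.im h
    have h2 := congrArg QuadraticAlgebra.re h
    simp only [QuadraticAlgebra.im_star, QuadraticAlgebra.re_star, add_eq_left,
      mul_eq_zero] at h1 h2
    rcases betaL_ne_zero_or W with hb | hb
    · exact h2.resolve_left hb
    · exact (mul_eq_zero.mp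
        (by linear_combination -h1 : (2 : RatFunc k) * z.im = 0)).resolve_left hb
  ext <;> simp [him]

omit [W.IsElliptic] in
/-- The degree of the `x`-coordinate of a point. -/
def ht : (W⁄(FF W)).toAffine.Point → ℕ
  | .zero => 0
  | .some x _ _ => hgt x.re

omit [W.IsElliptic] in
@[simp] lemma ht_zero : ht W 0 = 0 := rfl

omit [W.IsElliptic] in
@[simp] lemma ht_some {x y : FF W} (h) : ht W (.some x y h) = hgt x.re := rfl

omit [W.IsElliptic] in
lemma ht_neg (P : (W⁄(FF W)).toAffine.Point) : ht W (-P) = ht W P := by cases P <;> rfl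

lemma x_eq_of_mem_oddPts {x y : FF W} {h} (hP : Affine.Point.some x y h ∈ oddPts W) :
    x = algebraMap (RatFunc k) (FF W) x.re := by
  rw [mem_oddPts, Affine.Point.map_some, Affine.Point.neg_some, Affine.Point.some.injEq] at hP
  exact eq_algebraMap_of_star_eq W hP.1

omit [W.IsElliptic] in
lemma ht_genPt [W.IsElliptic] : ht W (genPt W) = 1 := by
  simp [genPt, xF, hgt_X]

omit [W.IsElliptic] in
lemma addSubVec_algebraMap (r s : RatFunc k) (i : Fin 3) :
    addSubVec (W⁄(FF W)) (algebraMap (RatFunc k) (FF W) r * algebraMap (RatFunc k) (FF W) s)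
        (algebraMap (RatFunc k) (FF W) r + algebraMap (RatFunc k) (FF W) s) 1 i =
      algebraMap (RatFunc k) (FF W)
        (addSubVec (W.map (algebraMap k (RatFunc k))) (r * s) (r + s) 1 i) := by
  rw [← addSubVec_map, map_mul, map_add, map_one, WeierstrassCurve.map_map]
  rfl

/-- The parallelogram law. -/
theorem ht_parallelogram [IsAlgClosed k] {P Q : (W⁄(FF W)).toAffine.Point} (hP : P ∈ oddPts W)
    (hQ : Q ∈ oddPts W) :
    ht W (P + Q) + ht W (P - Q) = 2 * ht W P + 2 * ht W Q := by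
  rcases P with _ | ⟨x₁, y₁, h₁⟩
  · simp [← Affine.Point.zero_def, ht_neg]; ring
  rcases Q with _ | ⟨x₂, y₂, h₂⟩
  · simp [← Affine.Point.zero_def]; ring
  have e₁ := x_eq_of_mem_oddPts W hP
  have e₂ := x_eq_of_mem_oddPts W hQ
  obtain ⟨r₁, rfl⟩ : ∃ r, x₁ = algebraMap (RatFunc k) (FF W) r := ⟨_, e₁⟩
  obtain ⟨r₂, rfl⟩ : ∃ r, x₂ = algebraMap (RatFunc k) (FF W) r := ⟨_, e₂⟩
  have hinj := (algebraMap (RatFunc k) (FF W)).injective
  rcases eq_or_ne r₁ r₂ with rfl | hr
  · rcases (Affine.Point.X_eq_iff (h₁ := h₁) (h₂ := h₂)).mp rfl with h | h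
    · obtain rfl : y₁ = y₂ := (Affine.Point.some.inj h).2
      rw [sub_self, ht_zero, add_zero, ← two_mul]
      obtain ⟨hz, hd⟩ := hgt_dup W r₁
      by_cases hy : y₁ = (W⁄(FF W)).toAffine.negY (algebraMap _ _ r₁) y₁
      · rw [Affine.Point.add_self_of_Y_eq hy, ht_zero, ht_some]
        have : hgt r₁ = 0 := hz (hinj (by
          rw [map_zero, ← addSubVec_algebraMap, addSubVec_diag_one _ h₁.1, ← hy, sub_self,
            zero_pow two_ne_zero]))
        simp [this]
      · rw [Affine.Point.add_self_of_Y_ne hy, ht_some, ht_some]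
        have hm := add_mem hP hP
        rw [Affine.Point.add_self_of_Y_ne hy] at hm
        have e₃ := x_eq_of_mem_oddPts W hm
        have := addX_dup (W⁄(FF W)) h₁.1 hy
        rw [e₃, addSubVec_algebraMap, addSubVec_algebraMap, ← map_mul] at this
        rw [hd _ (hinj this)]
        simp
        ring
    · rw [h, neg_add_cancel, ht_zero, zero_add]
      obtain ⟨hz, hd⟩ := hgt_dup W r₁
      rw [sub_eq_add_neg, ← neg_add, ht_neg, ht_neg]
      by_cases hy : y₂ = (W⁄(FF W)).toAffine.negY (algebraMap _ _ r₁) y₂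
      · rw [Affine.Point.add_self_of_Y_eq hy, ht_zero, ht_some]
        have : hgt r₁ = 0 := hz (hinj (by
          rw [map_zero, ← addSubVec_algebraMap, addSubVec_diag_one _ h₂.1, ← hy, sub_self,
            zero_pow two_ne_zero]))
        simp [this]
      · rw [Affine.Point.add_self_of_Y_ne hy, ht_some, ht_some]
        have hm := add_mem hQ hQ
        rw [Affine.Point.add_self_of_Y_ne hy] at hm
        have e₃ := x_eq_of_mem_oddPts W hm
        have := addX_dup (W⁄(FF W)) h₂.1 hy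
        rw [e₃, addSubVec_algebraMap, addSubVec_algebraMap, ← map_mul] at this
        rw [hd _ (hinj this)]
        simp
        ring
  · have hx : algebraMap (RatFunc k) (FF W) r₁ ≠ algebraMap (RatFunc k) (FF W) r₂ :=
      hinj.ne hr
    have hadd := add_mem hP hQ
    have hsub := sub_mem hP hQ
    rw [sub_eq_add_neg, Affine.Point.neg_some] at hsub ⊢
    rw [Affine.Point.add_of_X_ne hx] at hadd ⊢
    rw [Affine.Point.add_of_X_ne hx] at hsub ⊢
    have e₃ := x_eq_of_mem_oddPts W hadd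
    have e₄ := x_eq_of_mem_oddPts W hsub
    have s1 := addX_add_addX_neg (W⁄(FF W)) h₁.1 h₂.1 hx
    have s0 := addX_mul_addX_neg (W⁄(FF W)) h₁.1 h₂.1 hx
    rw [e₃, e₄, addSubVec_algebraMap, addSubVec_algebraMap, ← map_add, ← map_mul] at s1
    rw [e₃, e₄, addSubVec_algebraMap, addSubVec_algebraMap, ← map_mul, ← map_mul] at s0
    simp only [ht_some]
    rw [hgt_add_hgt_eq W ?_ (hinj s1) (hinj s0)]
    · simp; ring
    · simp only [addSubVec, Matrix.cons_val]
      intro h
      exact pow_ne_zero 2 (sub_ne_zero.mpr hr) (by linear_combination h)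

end Fermat.Agent.Isogeny
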