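import Mathlib.Algebra.Module.Basic
import Mathlib.Tactic.LinearCombination
import Mathlib.Tactic.Ring
import Mathlib.Tactic.Abel

/-!
Integer valued functions on an abelian group satisfying the parallelogram law.
-/

namespace Fermat.Agent.Isogeny

variable {A : Type*} [AddCommGroup A] {h : A → ℤ}
  (H : ∀ P Q : A, h (P + Q) + h (P - Q) = 2 * h P + 2 * h Q)
include H

lemma quad_zero : h 0 = 0 := by
  have := H 0 0
  rw [add_zero, sub_zero] at this
  omega

lemma quad_neg (P : A) : h (-P) = h P := by
  have := H 0 P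
  rw [zero_add, zero_sub, quad_zero H] at this
  omega

lemma quad_add_zsmul (P Q : A) (n : ℤ) :
    h (P + n • Q) = h P + n * (h (P + Q) - h P - h Q) + n ^ 2 * h Q := by
  have key : ∀ m : ℕ, ∀ R S : A,
      h (R + (m : ℤ) • S) = h R + m * (h (R + S) - h R - h S) + (m : ℤ) ^ 2 * h S := by
    intro m R S
    induction m using Nat.twoStepInduction with
    | zero => simp
    | one => simp; ring
    | more i ih0 ih1 =>
      have := H (R + ((i + 1 : ℕ) : ℤ) • S) S
      have e1 : R + ((i + 1 : ℕ) : ℤ) • S + S = R + ((i + 1 + 1 : ℕ) : ℤ) • S := by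
        push_cast; simp only [add_zsmul, one_zsmul]; abel
      have e2 : R + ((i + 1 : ℕ) : ℤ) • S - S = R + (i : ℤ) • S := by
        push_cast; rw [add_zsmul, one_zsmul]; abel
      rw [e1, e2, ih0, ih1] at this
      push_cast at this ⊢
      rw [show ((i : ℤ) + 2) = (i : ℤ) + 1 + 1 by ring]
      linear_combination this
  rcases n.eq_nat_or_neg with ⟨m, rfl | rfl⟩
  · exact key m P Q
  · have h1 := key m P (-Q)
    rw [smul_neg, ← neg_zsmul, quad_neg H, ← sub_eq_add_neg] at h1
    have h2 := H P Q
    linear_combination h1 + (m : ℤ) * h2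

/-- A function satisfying the parallelogram law is quadratic. -/
lemma quad_zsmul (Q : A) (n : ℤ) : h (n • Q) = n ^ 2 * h Q := by
  have := quad_add_zsmul H 0 Q n
  simpa [quad_zero H] using this

lemma quad_add_three (P Q R : A) :
    h (P + Q + R) = h (P + Q) + h (P + R) + h (Q + R) - h P - h Q - h R := by
  have h1 := H (P + Q) R
  have h2 := H (P - R) Q
  have h3 := H P (Q + R)
  have h4 := H P R
  have e1 : P + Q - R = P - R + Q := by abel
  have e2 : P - R - Q = P - (Q + R) := by abel
  have e3 : P + (Q + R) = P + Q + R := by abel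
  rw [e1] at h1
  rw [e2] at h2
  rw [e3] at h3
  omega

end Fermat.Agent.Isogeny
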