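import Fermat.Agent.EC.Isogeny.Degree
import Fermat.Agent.EC.Isogeny.Parallelogram
import Mathlib.Algebra.Module.Torsion.Basic
import Mathlib.AlgebraicGeometry.EllipticCurve.Affine.Point

/-!
The degree of multiplication by `n` is `n²`; hence `#E[n] = n²` over an algebraically closed
field in which `n` is invertible.
-/

noncomputable section

open WeierstrassCurve

namespace Fermat.Agent.Isogeny

variable {k : Type*} [Field k] [IsAlgClosed k] (W : WeierstrassCurve k) [W.IsElliptic]

/-- The degree as an integer valued function on the odd points. -/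
def htZ (P : oddPts W) : ℤ := ht W (P : (W⁄(FF W)).toAffine.Point)

lemma htZ_parallelogram (P Q : oddPts W) :
    htZ W (P + Q) + htZ W (P - Q) = 2 * htZ W P + 2 * htZ W Q := by
  unfold htZ
  push_cast
  exact_mod_cast ht_parallelogram W P.2 Q.2

/-- The generic point as an odd point. -/
def genO : oddPts W := ⟨genPt W, genPt_mem W⟩

omit [IsAlgClosed k] in
lemma htZ_genO : htZ W (genO W) = 1 := by
  simp [htZ, genO, ht_genPt]

lemma ht_zsmul_genPt (n : ℤ) : (ht W (n • genPt W) : ℤ) = n ^ 2 := by
  have h := quad_zsmul (htZ_parallelogram W) (genO W) n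
  rw [htZ_genO, mul_one] at h
  exact h

variable [DecidableEq k]

theorem card_torsionBy_eq_sq {n : ℕ} (hn : (n : k) ≠ 0) :
    Nat.card (Submodule.torsionBy ℤ W.toAffine.Point (n : ℤ)) = n ^ 2 := by
  have hn0 : n ≠ 0 := by rintro rfl; simp at hn
  let φ : W.toAffine.Point →+ W.toAffine.Point :=
    DistribSMul.toAddMonoidHom W.toAffine.Point (n : ℤ)
  have hrep : Rep W ((n : ℤ) • genPt W) (φ ∘ toPoint W) := (rep_genPt W).zsmul W n
  have hmem : (n : ℤ) • genPt W ∈ oddPts W := zsmul_mem (genPt_mem W) _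
  have hht : ht W ((n : ℤ) • genPt W) = n ^ 2 := by exact_mod_cast ht_zsmul_genPt W n
  obtain ⟨⟨s, hs⟩, -⟩ := card_ker_and_surjective W hmem
    (by rw [hht]; exact pow_ne_zero 2 hn0) hrep
  rw [hht] at hs
  have hker : Nat.card φ.ker = Nat.card (Submodule.torsionBy ℤ W.toAffine.Point (n : ℤ)) :=
    Nat.card_congr (Equiv.subtypeEquivRight fun x => by
      simp [φ, Submodule.mem_torsionBy_iff])
  rw [← hker]
  obtain ⟨p, hp⟩ : ∃ p, ringExpChar k = p := ⟨_, rfl⟩
  have hexp : ExpChar k p := hp ▸ ringExpChar.expChar k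
  rw [hp] at hs
  rcases Nat.eq_zero_or_pos s with rfl | hspos
  · simpa using hs
  cases hexp with
  | zero => simpa using hs
  | prime hprime =>
    exfalso
    have hdvd : p ∣ n := hprime.dvd_of_dvd_pow
      (hs ▸ dvd_mul_of_dvd_right (dvd_pow_self p hspos.ne') _)
    exact hn ((CharP.cast_eq_zero_iff k p n).mpr hdvd)

/-- The version for a base change to an algebraically closed field. -/
theorem card_torsionBy_baseChange {R : Type*} [CommRing R] {K : Type*} [Field K] [IsAlgClosed K]
    [DecidableEq K] [Algebra R K] (E : WeierstrassCurve R) [E.IsElliptic] {n : ℕ}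
    (hn : (n : K) ≠ 0) :
    Nat.card (Submodule.torsionBy ℤ (E⁄K).toAffine.Point (n : ℤ)) = n ^ 2 :=
  haveI : (E⁄K).IsElliptic := inferInstanceAs (E.map (algebraMap R K)).IsElliptic
  card_torsionBy_eq_sq (E⁄K) hn

end Fermat.Agent.Isogeny
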