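import Mathlib.Algebra.Polynomial.Expand
import Mathlib.FieldTheory.IsAlgClosed.Basic
import Mathlib.Algebra.CharP.Reduced

/-!
Number of zeros of `A - u * B` for all but finitely many `u`, for coprime polynomials `A`, `B`
over an algebraically closed field.
-/

noncomputable section

open Polynomial

namespace Fermat.Agent.Isogeny

variable {k : Type*} [Field k] [IsAlgClosed k]

lemma isCoprime_of_noRoot {A B : k[X]} (hAB : ∀ x : k, ¬(A.eval x = 0 ∧ B.eval x = 0)) :
    IsCoprime A B := by
  refine isCoprime_of_dvd A B (fun h => hAB 0 ⟨by simp [h.1], by simp [h.2]⟩) ?_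
  intro z hz hz0 hzA hzB
  obtain ⟨x, hx⟩ := IsAlgClosed.exists_root z (fun hd => hz (isUnit_iff_degree_eq_zero.mpr hd))
  exact hAB x ⟨eval_eq_zero_of_dvd_of_eval_eq_zero hzA hx,
    eval_eq_zero_of_dvd_of_eval_eq_zero hzB hx⟩

/-- `A' B = A B'` for coprime `A`, `B` forces both derivatives to vanish. -/
lemma derivative_eq_zero_of_wronskian {A B : k[X]}
    (hAB : ∀ x : k, ¬(A.eval x = 0 ∧ B.eval x = 0))
    (hW : derivative A * B = A * derivative B) : derivative A = 0 ∧ derivative B = 0 := by
  have key : ∀ {P Q : k[X]}, IsCoprime P Q → derivative P * Q = P * derivative Q →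
      derivative P = 0 := by
    intro P Q hPQ h
    by_contra h0
    have hdvd : P ∣ derivative P := hPQ.dvd_of_dvd_mul_right ⟨derivative Q, h⟩
    have hne : P.natDegree ≠ 0 := fun hd => h0 (by rw [eq_C_of_natDegree_eq_zero hd, derivative_C])
    exact absurd (natDegree_le_of_dvd hdvd h0) (not_le.mpr (natDegree_derivative_lt hne))
  have hc := isCoprime_of_noRoot hAB
  exact ⟨key hc hW, key hc.symm (by rw [mul_comm, ← hW, mul_comm])⟩

/-- For all but finitely many `u`, the number of zeros of `A - u * B` times a fixed power of the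
characteristic exponent is the degree. -/
theorem exists_card_fibre (A B : k[X]) (hAB : ∀ x : k, ¬(A.eval x = 0 ∧ B.eval x = 0))
    (hn : max A.natDegree B.natDegree ≠ 0) :
    ∃ (s : ℕ) (U : Set k), U.Finite ∧ ∀ u ∉ U,
      {x : k | A.eval x = u * B.eval x}.ncard * ringExpChar k ^ s =
        max A.natDegree B.natDegree := by
  obtain ⟨n, hdeg⟩ : ∃ n, max A.natDegree B.natDegree = n := ⟨_, rfl⟩
  induction n using Nat.strong_induction_on generalizing A B with
  | _ n ih =>
  by_cases hW : derivative A * B - A * derivative B = 0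
  · -- inseparable case
    obtain ⟨hA', hB'⟩ := derivative_eq_zero_of_wronskian hAB (sub_eq_zero.mp hW)
    obtain ⟨p, hp⟩ : ∃ p, ringExpChar k = p := ⟨_, rfl⟩
    have hexp : ExpChar k p := hp ▸ ringExpChar.expChar k
    simp only [hp] at ih ⊢
    cases hexp with
    | zero =>
      exfalso
      have h0 : ∀ {P : k[X]}, derivative P = 0 → P.natDegree = 0 := fun hP =>
        derivative_eq_zero.mp hP
      apply hn
      rw [h0 hA', h0 hB', max_self]
    | prime hprime =>
      have := Fact.mk hprime
      have : ExpChar k p := ExpChar.prime hprime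
      set A₀ := contract p A
      set B₀ := contract p B
      have eA : expand k p A₀ = A := expand_contract p hA' hprime.ne_zero
      have eB : expand k p B₀ = B := expand_contract p hB' hprime.ne_zero
      have evA : ∀ x : k, A.eval x = A₀.eval (x ^ p) := fun x => by rw [← eA, expand_eval]
      have evB : ∀ x : k, B.eval x = B₀.eval (x ^ p) := fun x => by rw [← eB, expand_eval]
      have hsurj : ∀ z : k, ∃ x, x ^ p = z := fun z => IsAlgClosed.exists_pow_nat_eq z hprime.pos
      have hAB₀ : ∀ z : k, ¬(A₀.eval z = 0 ∧ B₀.eval z = 0) := fun z => by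
        obtain ⟨x, rfl⟩ := hsurj z
        rw [← evA, ← evB]
        exact hAB x
      have hmax : max A.natDegree B.natDegree = max A₀.natDegree B₀.natDegree * p := by
        rw [← eA, ← eB, natDegree_expand, natDegree_expand, Nat.mul_max_mul_right]
      have hn0 : max A₀.natDegree B₀.natDegree ≠ 0 := fun h => hn (by rw [hmax, h, zero_mul])
      obtain ⟨s, U, hU, hcard⟩ := ih (max A₀.natDegree B₀.natDegree)
        (by
          rw [← hdeg, hmax]
          exact lt_mul_of_one_lt_right (Nat.pos_of_ne_zero hn0) hprime.one_lt)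
        A₀ B₀ hAB₀ hn0 rfl
      refine ⟨s + 1, U, hU, fun u hu => ?_⟩
      rw [hmax, ← hcard u hu, pow_succ, ← mul_assoc]
      congr 2
      refine Set.ncard_congr (fun x _ => x ^ p) (fun x hx => ?_)
        (fun a b _ _ h => frobenius_inj k p h) (fun z hz => ?_)
      · simpa only [Set.mem_ofPred_eq, evA, evB] using hx
      · obtain ⟨x, rfl⟩ := hsurj z
        exact ⟨x, by simpa only [Set.mem_ofPred_eq, evA, evB] using hz, rfl⟩
  · -- separable case
    refine ⟨0,
      ((fun x => A.eval x / B.eval x) '' {x | (derivative A * B - A * derivative B).eval x = 0})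
      ∪ {A.coeff n / B.coeff n},
      ((finite_setOfPred_isRoot hW).image _).union (Set.finite_singleton _),
      fun u hu => ?_⟩
    simp only [Set.mem_union, Set.mem_image, Set.mem_ofPred_eq, Set.mem_singleton_iff, not_or,
      not_exists, not_and] at hu
    obtain ⟨huW, hulead⟩ := hu
    rw [pow_zero, mul_one]
    set P := A - C u * B with hP
    have hPdeg : P.natDegree = n := by
      refine le_antisymm ?_ (le_natDegree_of_ne_zero ?_)
      · refine (natDegree_sub_le _ _).trans (max_le (hdeg ▸ le_max_left _ _) ?_)
        exact (natDegree_C_mul_le u B).trans (hdeg ▸ le_max_right _ _)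
      · rw [hP, coeff_sub, coeff_C_mul]
        intro h
        by_cases hb : B.coeff n = 0
        · rw [hb, mul_zero, sub_zero] at h
          have hn' : n ≠ 0 := hdeg ▸ hn
          rcases max_choice A.natDegree B.natDegree with hm | hm <;> rw [hm] at hdeg
          · rw [← hdeg, coeff_natDegree, leadingCoeff_eq_zero] at h
            rw [h, natDegree_zero] at hdeg; exact hn' hdeg.symm
          · rw [← hdeg, coeff_natDegree, leadingCoeff_eq_zero] at hb
            rw [hb, natDegree_zero] at hdeg; exact hn' hdeg.symm
        · exact hulead (by rw [eq_div_iff hb]; linear_combination -h)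
    have hP0 : P ≠ 0 :=
      fun h => by rw [h, natDegree_zero] at hPdeg; exact hn (hdeg.trans hPdeg.symm)
    have hset : {x : k | A.eval x = u * B.eval x} = {x | x ∈ P.roots} := by
      ext x
      rw [Set.mem_ofPred_eq, Set.mem_ofPred_eq, mem_roots hP0, IsRoot, hP, eval_sub, eval_mul,
        eval_C, sub_eq_zero]
    classical
    have hnd : P.roots.Nodup := by
      rw [Multiset.nodup_iff_count_le_one]
      intro x
      rw [count_roots]
      by_contra! hlt
      obtain ⟨h1, h2⟩ := (one_lt_rootMultiplicity_iff_isRoot hP0).mp hlt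
      simp only [IsRoot, hP, derivative_sub, derivative_C_mul, eval_sub, eval_mul, eval_C,
        sub_eq_zero] at h1 h2
      have hB : B.eval x ≠ 0 := fun h => hAB x ⟨by rw [h1, h, mul_zero], h⟩
      exact huW x (by simp [h1, h2]; ring) (by rw [h1, mul_div_assoc, div_self hB, mul_one])
    rw [hset, hdeg, ← hPdeg, ← IsAlgClosed.card_roots_eq_natDegree,
      ← Multiset.toFinset_card_of_nodup hnd, ← Set.ncard_coe_finset]
    congr 1
    ext x
    simp

end Fermat.Agent.Isogeny
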