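import Fermat.Agent.EC.Isogeny.Eval
import Fermat.Agent.EC.Isogeny.RootCount
import Mathlib.Data.Set.Card

/-!
Kernel and surjectivity of an endomorphism of the group of points that is represented by a point
over the function field: the kernel order times a power of the characteristic is the degree.
-/

noncomputable section

open Polynomial WeierstrassCurve Filter
open scoped Pointwise

namespace Fermat.Agent.Isogeny

variable {k : Type*} [Field k] (W : WeierstrassCurve k) [W.IsElliptic]

/-- The `x`-coordinate, `0` at the origin. -/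
def xcoord : W.toAffine.Point → k
  | .zero => 0
  | .some x _ _ => x

omit [W.IsElliptic] in
@[simp] lemma xcoord_some {x y : k} (h) : xcoord W (.some x y h) = x := rfl

lemma toPoint_injective : Function.Injective (toPoint W) := fun _ _ h =>
  Subtype.ext (Prod.ext (Affine.Point.some.inj h).1 (Affine.Point.some.inj h).2)

lemma eq_zero_or_toPoint (R : W.toAffine.Point) : R = 0 ∨ ∃ p, R = toPoint W p := by
  rcases R with _ | ⟨x, y, h⟩
  · exact Or.inl rfl
  · exact Or.inr ⟨⟨(x, y), h.1⟩, rfl⟩

lemma toPoint_ne_zero (p : Pt W) : toPoint W p ≠ 0 := Affine.Point.some_ne_zero _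

lemma eventually_not_twoTorsion :
    ∀ᶠ p : Pt W in cofinite, p.1.2 ≠ W.toAffine.negY p.1.1 p.1.2 := by
  refine eventually_ne W ?_ (evFF_yF W) (evFF_negY W (evFF_xF W) (evFF_yF W))
  intro h
  have hm := (mem_oddPts W).mp (genPt_mem W)
  rw [genPt, Affine.Point.map_some, Affine.Point.neg_some, Affine.Point.some.injEq, ← h] at hm
  have h2 := congrArg QuadraticAlgebra.im (eq_algebraMap_of_star_eq W hm.2)
  exact one_ne_zero (α := RatFunc k) h2

variable [IsAlgClosed k]

omit [W.IsElliptic] in
lemma exists_Y (x : k) : ∃ y, W.toAffine.Equation x y := by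
  obtain ⟨y, hy⟩ := IsAlgClosed.exists_root
    (Polynomial.X ^ 2 + C (W.a₁ * x + W.a₃) * Polynomial.X
      - C (x ^ 3 + W.a₂ * x ^ 2 + W.a₄ * x + W.a₆))
    (ne_of_eq_of_ne (b := (2 : WithBot ℕ)) (by compute_degree!) (by decide))
  refine ⟨y, (Affine.equation_iff _ _).mpr ?_⟩
  simp only [IsRoot, eval_sub, eval_add, eval_mul, eval_pow, eval_X, eval_C] at hy
  linear_combination hy

omit [W.IsElliptic] in
lemma infinite_Pt : Infinite (Pt W) :=
  Infinite.of_surjective (fun p : Pt W => p.1.1) fun x => ⟨⟨(x, (exists_Y W x).choose),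
    (exists_Y W x).choose_spec⟩, rfl⟩

lemma infinite_Point : Infinite W.toAffine.Point :=
  haveI := infinite_Pt W
  Infinite.of_injective _ (toPoint_injective W)

variable [DecidableEq k]

omit [DecidableEq k] in
lemma exists_const_of_rep {P : (W⁄(FF W)).toAffine.Point} {φ : Pt W → W.toAffine.Point}
    (hP : P ∈ oddPts W) (h : ht W P = 0) (hφ : Rep W P φ) :
    ∃ T, ∀ᶠ p in cofinite, φ p = T := by
  rcases P with _ | ⟨x, y, hn⟩
  · exact ⟨0, hφ⟩
  obtain ⟨fx, fy, hx, hy, hev⟩ := hφ
  obtain ⟨c, hc⟩ := exists_eq_C_of_hgt_eq_zero (r := x.re) h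
  have hxc : x = algebraMap k (FF W) c := by
    rw [algebraMap_FF_eq, ← hc]; exact x_eq_of_mem_oddPts W hP
  obtain ⟨d, hd⟩ := exists_Y W c
  have hd' : (W⁄(FF W)).toAffine.Equation (algebraMap k (FF W) c) (algebraMap k (FF W) d) :=
    Affine.Equation.map (algebraMap k (FF W)) hd
  obtain ⟨e, he⟩ : ∃ e, y = algebraMap k (FF W) e := by
    rcases Affine.Y_eq_of_X_eq hn.1 hd' hxc with h1 | h1
    · exact ⟨d, h1⟩
    · exact ⟨W.toAffine.negY c d, h1.trans (by
        simp [Affine.negY, WeierstrassCurve.baseChange])⟩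
  have hns : W.toAffine.Nonsingular c e := by
    have := hn
    rw [hxc, he] at this
    exact (Affine.map_nonsingular (W := W.toAffine) (algebraMap k (FF W)).injective c e).mp this
  refine ⟨.some c e hns, ?_⟩
  filter_upwards [hev, eventually_eq W hxc hx (evFF_const W c),
    eventually_eq W he hy (evFF_const W e)] with p ⟨h1, hp⟩ hpx hpy
  rw [hp]
  simp [hpx, hpy]

theorem hom_eq_zero_of_ht_eq_zero {P : (W⁄(FF W)).toAffine.Point}
    {φ : W.toAffine.Point →+ W.toAffine.Point} (hP : P ∈ oddPts W) (h : ht W P = 0)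
    (hφ : Rep W P (φ ∘ toPoint W)) : φ = 0 := by
  obtain ⟨T, hT⟩ := exists_const_of_rep W hP h hφ
  rw [eventually_cofinite] at hT
  ext g
  have := infinite_Point W
  set B : Set W.toAffine.Point := insert 0 (toPoint W '' {p | ¬(φ ∘ toPoint W) p = T})
  have hB : B.Finite := (hT.image _).insert 0
  obtain ⟨R, hR⟩ := (hB.union (hB.image (· - g))).exists_notMem
  simp only [Set.mem_union, Set.mem_image, not_or, not_exists, not_and] at hR
  have good : ∀ S, S ∉ B → φ S = T := fun S hS => by
    rcases eq_zero_or_toPoint W S with rfl | ⟨p, rfl⟩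
    · exact absurd (Set.mem_insert _ _) hS
    · by_contra hne
      exact hS (Set.mem_insert_of_mem _ ⟨p, hne, rfl⟩)
  have h1 := good R hR.1
  have h2 := good (R + g) fun hm => hR.2 _ hm (add_sub_cancel_right R g)
  rw [map_add, h1, add_eq_left] at h2
  rw [h2, AddMonoidHom.zero_apply]

/-- An endomorphism represented by a function-field point of nonzero height is surjective, and its
kernel order times a power of the characteristic exponent is the height. -/
theorem card_ker_and_surjective {P : (W⁄(FF W)).toAffine.Point}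
    {φ : W.toAffine.Point →+ W.toAffine.Point} (hP : P ∈ oddPts W) (h : ht W P ≠ 0)
    (hφ : Rep W P (φ ∘ toPoint W)) :
    (∃ s, Nat.card φ.ker * ringExpChar k ^ s = ht W P) ∧ Function.Surjective φ := by
  rcases P with _ | ⟨x, y, hn⟩
  · exact absurd rfl h
  rw [ht_some] at h ⊢
  obtain ⟨fx, fy, hfx, hfy, hev⟩ := hφ
  set A := x.re.num
  set B := x.re.denom
  have hAB : ∀ z, ¬(A.eval z = 0 ∧ B.eval z = 0) := num_denom_eval x.re
  obtain ⟨s, U, hU, hcard⟩ := exists_card_fibre A B hAB h
  -- good points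
  set bad : Set (Pt W) := {p | ¬(B.eval p.1.1 ≠ 0 ∧ p.1.2 ≠ W.toAffine.negY p.1.1 p.1.2 ∧
    ∃ b hb, φ (toPoint W p) = Affine.Point.some (A.eval p.1.1 / B.eval p.1.1) b hb)} with hbaddef
  have hbad : bad.Finite := by
    have hmul : evFF W x * evPoly W B = evPoly W A := by
      rw [x_eq_of_mem_oddPts W hP, evFF_algebraMap, ← evL_algebraMap, ← map_mul,
        mul_denom_eq_num, evL_algebraMap]
    rw [hfx, evPoly_apply, evPoly_apply, ← Germ.coe_mul, Germ.coe_eq] at hmul
    refine eventually_cofinite.mp ?_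
    filter_upwards [hmul, eventually_eval_ne_zero W x.re.denom_ne_zero, hev,
      eventually_not_twoTorsion W] with p hm hd ⟨hb, hp⟩ hw
    refine ⟨hd, hw, fy p, ?_⟩
    have : fx p = A.eval p.1.1 / B.eval p.1.1 := by
      rw [eq_div_iff hd]; exact hm
    exact ⟨this ▸ hb, hp.trans (by simp [this])⟩
  set E : Set k := U ∪ (fun p => xcoord W (φ (toPoint W p))) '' bad ∪
    (fun p : Pt W => A.eval p.1.1 / B.eval p.1.1) '' bad ∪
    (fun p : Pt W => p.1.1) '' {p | ¬ p.1.2 ≠ W.toAffine.negY p.1.1 p.1.2} with hEdef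
  have hE : E.Finite := ((hU.union (hbad.image _)).union (hbad.image _)).union
    ((eventually_cofinite.mp (eventually_not_twoTorsion W)).image _)
  -- fibres above good values
  have main : ∀ (u v : k) (huv : W.toAffine.Nonsingular u v), u ∉ E →
      (∃ R, φ R = Affine.Point.some u v huv) ∧
        Nat.card φ.ker * ringExpChar k ^ s = max A.natDegree B.natDegree := by
    intro u v huv hu
    simp only [hEdef, Set.mem_union, not_or] at hu
    obtain ⟨⟨⟨hu1, hu2⟩, hu3⟩, hu4⟩ := hu
    set Q := Affine.Point.some u v huv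
    set Z := {z : k | A.eval z = u * B.eval z} with hZdef
    have hZ := hcard u hu1
    have hZ0 : Z.ncard ≠ 0 := fun h0 => h (by
      change max A.natDegree B.natDegree = 0
      rw [← hZ, ← hZdef, h0, zero_mul])
    have hZfin : Z.Finite := Set.finite_of_ncard_ne_zero hZ0
    have good : ∀ p : Pt W, p.1.1 ∈ Z → p ∉ bad := fun p hp hb => by
      have hB0 : B.eval p.1.1 ≠ 0 := fun h0 => hAB p.1.1 ⟨by rw [hp, h0, mul_zero], h0⟩
      exact hu3 ⟨p, hb, by rw [div_eq_iff hB0]; exact hp⟩
    have hQ : Q ≠ -Q := by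
      intro he
      exact hu4 ⟨⟨(u, v), huv.1⟩, not_not.mpr (Affine.Point.some.inj he).2, rfl⟩
    have hS : {R | φ R = Q} ∪ {R | φ R = -Q} = toPoint W '' {p | p.1.1 ∈ Z} := by
      ext R
      simp only [Set.mem_union, Set.mem_ofPred_eq, Set.mem_image]
      constructor
      · intro hR
        have hx : xcoord W (φ R) = u := by rcases hR with h | h <;> rw [h] <;> rfl
        rcases eq_zero_or_toPoint W R with rfl | ⟨p, rfl⟩
        · rw [map_zero] at hR
          rcases hR with h | h
          · exact absurd h.symm (Affine.Point.some_ne_zero _)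
          · exact absurd (neg_eq_zero.mp h.symm) (Affine.Point.some_ne_zero _)
        · have hp : p ∉ bad := fun hb => hu2 ⟨p, hb, hx⟩
          simp only [hbaddef, Set.mem_ofPred_eq, not_not] at hp
          obtain ⟨hB0, -, b, hb, hp⟩ := hp
          rw [hp, xcoord_some, div_eq_iff hB0] at hx
          exact ⟨p, hx, rfl⟩
      · rintro ⟨p, hpZ, rfl⟩
        have hp := good p hpZ
        simp only [hbaddef, Set.mem_ofPred_eq, not_not] at hp
        obtain ⟨hB0, -, b, hb, hp⟩ := hp
        rw [hp]
        refine (Affine.Point.X_eq_iff (h₁ := hb) (h₂ := huv)).mp ?_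
        rw [div_eq_iff hB0]
        exact hpZ
    -- cardinality of the right-hand side
    choose sel hsel using exists_Y W
    let f₁ : k → Pt W := fun z => ⟨(z, sel z), hsel z⟩
    let f₂ : k → Pt W := fun z => ⟨(z, W.toAffine.negY z (sel z)),
      (Affine.equation_neg _ _).mpr (hsel z)⟩
    have hinj₁ : Function.Injective f₁ := fun a b hab => congrArg (fun p : Pt W => p.1.1) hab
    have hinj₂ : Function.Injective f₂ := fun a b hab => congrArg (fun p : Pt W => p.1.1) hab
    have hsplit : {p : Pt W | p.1.1 ∈ Z} = f₁ '' Z ∪ f₂ '' Z := by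
      ext p
      simp only [Set.mem_ofPred_eq, Set.mem_union, Set.mem_image]
      constructor
      · intro hp
        rcases Affine.Y_eq_of_X_eq p.2 (hsel p.1.1) rfl with h1 | h1
        · exact Or.inl ⟨_, hp, Subtype.ext (Prod.ext rfl h1.symm)⟩
        · exact Or.inr ⟨_, hp, Subtype.ext (Prod.ext rfl h1.symm)⟩
      · rintro (⟨z, hz, rfl⟩ | ⟨z, hz, rfl⟩) <;> exact hz
    have hdisj : Disjoint (f₁ '' Z) (f₂ '' Z) := by
      rw [Set.disjoint_left]
      rintro _ ⟨z, hz, rfl⟩ ⟨z', hz', he⟩
      obtain rfl : z' = z := congrArg (fun p : Pt W => p.1.1) he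
      have hp := good (f₁ z') hz
      simp only [hbaddef, Set.mem_ofPred_eq, not_not] at hp
      exact hp.2.1 (congrArg (fun p : Pt W => p.1.2) he).symm
    have hR : (toPoint W '' {p | p.1.1 ∈ Z}).ncard = 2 * Z.ncard := by
      rw [Set.ncard_image_of_injective _ (toPoint_injective W), hsplit,
        Set.ncard_union_eq hdisj (hZfin.image _) (hZfin.image _),
        Set.ncard_image_of_injective _ hinj₁, Set.ncard_image_of_injective _ hinj₂, two_mul]
    -- a preimage
    obtain ⟨R₀, hR₀⟩ : ∃ R, φ R = Q := by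
      obtain ⟨R, hmem⟩ : ({R | φ R = Q} ∪ {R | φ R = -Q}).Nonempty := by
        rw [hS]
        exact Set.nonempty_of_ncard_ne_zero (by rw [hR]; omega)
      rcases hmem with h1 | h1
      · exact ⟨R, h1⟩
      · exact ⟨-R, by rw [map_neg, show φ R = -Q from h1, neg_neg]⟩
    have hcoset : ∀ R₁, {R | φ R = φ R₁} = (fun a => R₁ + a) '' (φ.ker : Set _) := by
      intro R₁
      ext R
      simp only [Set.mem_ofPred_eq, Set.mem_image, SetLike.mem_coe, AddMonoidHom.mem_ker]
      exact ⟨fun hR => ⟨R - R₁, by rw [map_sub, hR, sub_self], add_sub_cancel _ _⟩,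
        fun ⟨a, ha, hR⟩ => by rw [← hR, map_add, ha, add_zero]⟩
    refine ⟨⟨R₀, hR₀⟩, ?_⟩
    have hc : ∀ R₁, {R | φ R = φ R₁}.ncard = Nat.card φ.ker := fun R₁ => by
      rw [hcoset, Set.ncard_image_of_injective _ (add_right_injective R₁), ← Nat.card_coe_set_eq]
      rfl
    have hfin : (toPoint W '' {p | p.1.1 ∈ Z}).Finite :=
      Set.finite_of_ncard_ne_zero (by rw [hR]; omega)
    have hdis : Disjoint {R | φ R = Q} {R | φ R = -Q} :=
      Set.disjoint_left.mpr fun R (h1 : φ R = Q) (h2 : φ R = -Q) => hQ (h1.symm.trans h2)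
    have hsum := congrArg Set.ncard hS
    rw [Set.ncard_union_eq hdis (hfin.subset (hS ▸ Set.subset_union_left))
      (hfin.subset (hS ▸ Set.subset_union_right)), ← hR₀, ← map_neg, hc, hc, hR] at hsum
    rw [← hZ, ← hZdef, show Nat.card φ.ker = Z.ncard by omega]
  constructor
  · obtain ⟨u, hu⟩ := hE.exists_notMem
    obtain ⟨v, hv⟩ := exists_Y W u
    exact ⟨s, (main u v ((Affine.equation_iff_nonsingular).mp hv) hu).2⟩
  · intro g
    by_contra hg
    push Not at hg
    set G : Set W.toAffine.Point := insert 0 (toPoint W '' {p | p.1.1 ∈ E})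
    have hG : G.Finite := by
      refine (Set.Finite.image _ ?_).insert 0
      exact (hE.biUnion fun z _ => finite_fibre W z).subset
        fun p (hp : p.1.1 ∈ E) => Set.mem_biUnion hp rfl
    have hmiss : ∀ R, φ R + g ∈ G := by
      intro R
      by_contra hm
      rcases eq_zero_or_toPoint W (φ R + g) with h0 | ⟨p, hp⟩
      · exact hm (h0 ▸ Set.mem_insert _ _)
      · have hpE : p.1.1 ∉ E := fun he => hm (hp ▸ Set.mem_insert_of_mem _ ⟨p, he, rfl⟩)
        obtain ⟨R', hR'⟩ := (main p.1.1 p.1.2
          ((Affine.equation_iff_nonsingular).mp p.2) hpE).1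
        refine hg (R' - R) ?_
        rw [map_sub, hR', sub_eq_iff_eq_add', hp]
        rfl
    obtain ⟨u, hu⟩ := hE.exists_notMem
    obtain ⟨v, hv⟩ := exists_Y W u
    have hker : (φ.ker : Set W.toAffine.Point).Finite := by
      have hk := (main u v ((Affine.equation_iff_nonsingular).mp hv) hu).2
      exact Set.finite_of_ncard_ne_zero fun h0 => h (by
        change max A.natDegree B.natDegree = 0
        rw [← hk, ← SetLike.coe_sort_coe, Nat.card_coe_set_eq, h0, zero_mul])
    have := infinite_Point W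
    refine Set.infinite_univ (α := W.toAffine.Point) ?_
    have hpre : ∀ t ∈ G, {R | φ R + g = t}.Finite := by
      intro t _
      rcases Set.eq_empty_or_nonempty {R | φ R + g = t} with he | ⟨R₁, hR₁⟩
      · simp [he]
      · refine (hker.image (R₁ + ·)).subset fun R (hR : φ R + g = t) =>
          ⟨R - R₁, ?_, add_sub_cancel _ _⟩
        rw [SetLike.mem_coe, AddMonoidHom.mem_ker, map_sub, sub_eq_zero]
        exact add_right_cancel (hR.trans (hR₁ : φ R₁ + g = t).symm)
    exact (hG.biUnion hpre).subset fun R _ => Set.mem_biUnion (hmiss R) rfl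

end Fermat.Agent.Isogeny
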