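import Mathlib.Order.Filter.Germ.Basic
import Mathlib.Order.Filter.Cofinite
import Mathlib.FieldTheory.IsAlgClosed.Basic
import Fermat.Agent.EC.Isogeny.FunctionPoints

/-!
Evaluation of rational functions on an elliptic curve at almost all points, as a ring
homomorphism into germs, and the map of points represented by a function-field point.
-/

noncomputable section

open Polynomial WeierstrassCurve Filter

namespace Fermat.Agent.Isogeny

variable {k : Type*} [Field k] (W : WeierstrassCurve k)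

/-- Affine points. -/
abbrev Pt := {p : k × k // W.toAffine.Equation p.1 p.2}

/-- Germs of functions at almost every point. -/
abbrev PtGerm := Germ (cofinite : Filter (Pt W)) k

lemma finite_fibre (x₀ : k) : {p : Pt W | p.1.1 = x₀}.Finite := by
  rcases Set.eq_empty_or_nonempty {p : Pt W | p.1.1 = x₀} with h | ⟨p₀, h₀⟩
  · simp [h]
  refine Set.Finite.subset (Set.Finite.preimage (Subtype.val_injective.injOn)
    (Set.toFinite {(x₀, p₀.1.2), (x₀, W.toAffine.negY x₀ p₀.1.2)})) fun p (hp : p.1.1 = x₀) => ?_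
  have h₀' : p₀.1.1 = x₀ := h₀
  rcases Affine.Y_eq_of_X_eq p.2 p₀.2 (hp.trans h₀'.symm) with h | h
  · exact Or.inl (Prod.ext hp h)
  · exact Or.inr (Prod.ext hp (by rw [h, h₀']))

lemma eventually_X_notMem {s : Set k} (hs : s.Finite) :
    ∀ᶠ p : Pt W in cofinite, p.1.1 ∉ s := by
  rw [eventually_cofinite]
  refine (hs.biUnion fun x _ => finite_fibre W x).subset fun p hp => ?_
  simp only [Set.mem_ofPred_eq, not_not] at hp
  exact Set.mem_biUnion hp rfl

lemma eventually_eval_ne_zero {P : k[X]} (hP : P ≠ 0) :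
    ∀ᶠ p : Pt W in cofinite, P.eval p.1.1 ≠ 0 :=
  eventually_X_notMem W (finite_setOfPred_isRoot hP)

/-- Evaluation of polynomials. -/
def evPoly : k[X] →+* PtGerm W :=
  (Germ.coeRingHom cofinite).comp (RingHom.pi fun p : Pt W => evalRingHom p.1.1)

lemma evPoly_apply (P : k[X]) : evPoly W P = ↑(fun p : Pt W => P.eval p.1.1) := rfl

lemma isUnit_evPoly (y : nonZeroDivisors k[X]) : IsUnit (evPoly W y) := by
  refine IsUnit.of_mul_eq_one (↑(fun p : Pt W => ((y : k[X]).eval p.1.1)⁻¹) : PtGerm W) ?_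
  rw [evPoly_apply, ← Germ.coe_mul, ← Germ.coe_one, Germ.coe_eq]
  filter_upwards [eventually_eval_ne_zero W (nonZeroDivisors.coe_ne_zero y)] with p hp
  simp [mul_inv_cancel₀ hp]

/-- Evaluation of rational functions of `x`. -/
def evL : RatFunc k →+* PtGerm W := IsLocalization.lift (isUnit_evPoly W)

@[simp] lemma evL_algebraMap (P : k[X]) : evL W (algebraMap k[X] (RatFunc k) P) = evPoly W P :=
  IsLocalization.lift_eq _ P

lemma evL_C (c : k) : evL W (RatFunc.C c) = ↑(fun _ : Pt W => c) := by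
  rw [← RatFunc.algebraMap_C, evL_algebraMap, evPoly_apply]
  simp

lemma evL_X : evL W RatFunc.X = ↑(fun p : Pt W => p.1.1) := by
  rw [← RatFunc.algebraMap_X, evL_algebraMap, evPoly_apply]
  simp

/-- The germ of the `y`-coordinate. -/
def yG : PtGerm W := ↑(fun p : Pt W => p.1.2)

lemma yG_mul_self : yG W * yG W = evL W (alphaL W) + evL W (betaL W) * yG W := by
  rw [yG, alphaL, betaL]
  simp only [map_add, map_mul, map_pow, map_neg, evL_C, evL_X, ← Germ.coe_mul, ← Germ.coe_pow,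
    ← Germ.coe_add, ← Germ.coe_neg, Germ.coe_eq]
  refine Eventually.of_forall fun p => ?_
  have h := (Affine.equation_iff _ _).mp p.2
  simp only [Pi.mul_apply, Pi.add_apply, Pi.pow_apply, Pi.neg_apply]
  linear_combination h

/-- Evaluation of the function field. -/
def evFF : FF W →+* PtGerm W where
  toFun z := evL W z.re + evL W z.im * yG W
  map_one' := by
    change evL W 1 + evL W 0 * yG W = 1
    simp
  map_zero' := by
    change evL W 0 + evL W 0 * yG W = 0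
    simp
  map_add' z w := by
    change evL W (z.re + w.re) + evL W (z.im + w.im) * yG W = _
    simp only [map_add]
    ring
  map_mul' z w := by
    change evL W (z.re * w.re + alphaL W * z.im * w.im) +
      evL W (z.re * w.im + z.im * w.re + betaL W * z.im * w.im) * yG W = _
    simp only [map_add, map_mul]
    linear_combination -(evL W z.im * evL W w.im) * yG_mul_self W

lemma evFF_algebraMap (r : RatFunc k) : evFF W (algebraMap (RatFunc k) (FF W) r) = evL W r := by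
  change evL W r + evL W 0 * yG W = _
  simp

lemma evFF_const (c : k) : evFF W (algebraMap k (FF W) c) = ↑(fun _ : Pt W => c) := by
  rw [algebraMap_FF_eq, evFF_algebraMap, evL_C]

lemma evFF_xF : evFF W (xF W) = ↑(fun p : Pt W => p.1.1) := by
  rw [xF, evFF_algebraMap, evL_X]

lemma evFF_yF : evFF W (yF W) = ↑(fun p : Pt W => p.1.2) := by
  change evL W 0 + evL W 1 * yG W = _
  simp [yG]

lemma exists_rep (g : PtGerm W) : ∃ f : Pt W → k, g = ↑f :=
  Germ.inductionOn g fun f => ⟨f, rfl⟩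

lemma eventually_ne_zero {z : FF W} (hz : z ≠ 0) {f : Pt W → k} (hf : evFF W z = ↑f) :
    ∀ᶠ p in cofinite, f p ≠ 0 := by
  obtain ⟨g, hg⟩ := exists_rep W (evFF W z⁻¹)
  have h : evFF W z * evFF W z⁻¹ = 1 := by rw [← map_mul, mul_inv_cancel₀ hz, map_one]
  rw [hf, hg, ← Germ.coe_mul, ← Germ.coe_one, Germ.coe_eq] at h
  filter_upwards [h] with p hp h0
  simp [h0] at hp

lemma eventually_eq {z w : FF W} (h : z = w) {f g : Pt W → k} (hf : evFF W z = ↑f)
    (hg : evFF W w = ↑g) : ∀ᶠ p in cofinite, f p = g p :=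
  Germ.coe_eq.mp (by rw [← hf, ← hg, h])

lemma eventually_ne {z w : FF W} (h : z ≠ w) {f g : Pt W → k} (hf : evFF W z = ↑f)
    (hg : evFF W w = ↑g) : ∀ᶠ p in cofinite, f p ≠ g p := by
  filter_upwards [eventually_ne_zero W (sub_ne_zero.mpr h)
    (by rw [map_sub, hf, hg, ← Germ.coe_sub] : evFF W (z - w) = ↑(f - g))] with p hp
  exact sub_ne_zero.mp hp

lemma evFF_negY {x y : FF W} {fx fy : Pt W → k} (hx : evFF W x = ↑fx) (hy : evFF W y = ↑fy) :
    evFF W ((W⁄(FF W)).toAffine.negY x y) =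
      ↑(fun p => W.toAffine.negY (fx p) (fy p)) := by
  simp only [Affine.negY, WeierstrassCurve.baseChange, map_a₁, map_a₃, map_sub, map_mul, map_neg,
    hx, hy, evFF_const, ← Germ.coe_neg, ← Germ.coe_mul, ← Germ.coe_sub]
  rfl

lemma evFF_addX {x₁ x₂ l : FF W} {f₁ f₂ fl : Pt W → k} (h₁ : evFF W x₁ = ↑f₁)
    (h₂ : evFF W x₂ = ↑f₂) (hl : evFF W l = ↑fl) :
    evFF W ((W⁄(FF W)).toAffine.addX x₁ x₂ l) =
      ↑(fun p => W.toAffine.addX (f₁ p) (f₂ p) (fl p)) := by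
  simp only [Affine.addX, WeierstrassCurve.baseChange, map_a₁, map_a₂, map_sub, map_mul, map_add,
    map_pow, h₁, h₂, hl, evFF_const, ← Germ.coe_pow, ← Germ.coe_mul, ← Germ.coe_sub,
    ← Germ.coe_add]
  rfl

lemma evFF_addY {x₁ x₂ y₁ l : FF W} {f₁ f₂ g₁ fl : Pt W → k} (h₁ : evFF W x₁ = ↑f₁)
    (h₂ : evFF W x₂ = ↑f₂) (hy : evFF W y₁ = ↑g₁) (hl : evFF W l = ↑fl) :
    evFF W ((W⁄(FF W)).toAffine.addY x₁ x₂ y₁ l) =
      ↑(fun p => W.toAffine.addY (f₁ p) (f₂ p) (g₁ p) (fl p)) := by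
  rw [Affine.addY]
  refine evFF_negY W (evFF_addX W h₁ h₂ hl)
    (fy := fun p => W.toAffine.negAddY (f₁ p) (f₂ p) (g₁ p) (fl p)) ?_
  rw [Affine.negAddY, map_add, map_mul, map_sub, evFF_addX W h₁ h₂ hl, h₁, hy, hl,
    ← Germ.coe_sub, ← Germ.coe_mul, ← Germ.coe_add]
  rfl

variable [DecidableEq k]

/-- A slope in the function field evaluates to the slope. -/
lemma exists_evFF_slope {x₁ x₂ y₁ y₂ : FF W} {f₁ f₂ g₁ g₂ : Pt W → k}
    (hxy : ¬(x₁ = x₂ ∧ y₁ = (W⁄(FF W)).toAffine.negY x₂ y₂))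
    (e₁ : (W⁄(FF W)).toAffine.Equation x₁ y₁) (e₂ : (W⁄(FF W)).toAffine.Equation x₂ y₂)
    (h₁ : evFF W x₁ = ↑f₁) (h₂ : evFF W x₂ = ↑f₂) (k₁ : evFF W y₁ = ↑g₁)
    (k₂ : evFF W y₂ = ↑g₂) :
    ∃ fl : Pt W → k,
      evFF W ((W⁄(FF W)).toAffine.slope x₁ x₂ y₁ y₂) = ↑fl ∧
      ∀ᶠ p in cofinite, ¬(f₁ p = f₂ p ∧ g₁ p = W.toAffine.negY (f₂ p) (g₂ p)) ∧
        W.toAffine.slope (f₁ p) (f₂ p) (g₁ p) (g₂ p) = fl p := by
  obtain ⟨fl, hfl⟩ := exists_rep W (evFF W ((W⁄(FF W)).toAffine.slope x₁ x₂ y₁ y₂))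
  refine ⟨fl, hfl, ?_⟩
  rcases eq_or_ne x₁ x₂ with hx | hx
  · have hy : y₁ ≠ (W⁄(FF W)).toAffine.negY x₂ y₂ := fun h => hxy ⟨hx, h⟩
    have hy' : y₁ = y₂ := (Affine.Y_eq_of_X_eq e₁ e₂ hx).resolve_right hy
    have hden : y₁ - (W⁄(FF W)).toAffine.negY x₁ y₁ ≠ 0 := by
      rw [sub_ne_zero]
      conv_rhs => rw [hx, hy']
      exact hy
    have hmul : (W⁄(FF W)).toAffine.slope x₁ x₂ y₁ y₂ * (y₁ - (W⁄(FF W)).toAffine.negY x₁ y₁) =
        3 * x₁ ^ 2 + 2 * (W⁄(FF W)).toAffine.a₂ * x₁ + (W⁄(FF W)).toAffine.a₄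
          - (W⁄(FF W)).toAffine.a₁ * y₁ := by
      rw [Affine.slope_of_Y_ne hx hy, div_mul_cancel₀ _ hden]
    have := congrArg (evFF W) hmul
    rw [map_mul, map_sub, hfl, evFF_negY W h₁ k₁, k₁] at this
    simp only [map_mul, map_sub, map_add, map_pow, map_ofNat, WeierstrassCurve.baseChange, map_a₁,
      map_a₂, map_a₄, evFF_const, h₁, k₁] at this
    rw [← Germ.coe_ofNat, ← Germ.coe_ofNat] at this
    simp only [← Germ.coe_mul, ← Germ.coe_sub, ← Germ.coe_add, ← Germ.coe_pow, Germ.coe_eq] at this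
    filter_upwards [this, eventually_eq W hx h₁ h₂, eventually_eq W hy' k₁ k₂,
      eventually_ne W hy k₁ (evFF_negY W h₂ k₂)] with p hp ex ey hne
    refine ⟨fun h => hne h.2, ?_⟩
    rw [Affine.slope_of_Y_ne ex hne, div_eq_iff]
    · simpa using hp.symm
    · rw [sub_ne_zero, ex]
      conv_rhs => rw [ey]
      exact hne
  · have hmul : (W⁄(FF W)).toAffine.slope x₁ x₂ y₁ y₂ * (x₁ - x₂) = y₁ - y₂ := by
      rw [Affine.slope_of_X_ne hx, div_mul_cancel₀ _ (sub_ne_zero.mpr hx)]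
    have := congrArg (evFF W) hmul
    simp only [map_mul, map_sub, h₁, h₂, k₁, k₂, hfl, ← Germ.coe_mul, ← Germ.coe_sub,
      Germ.coe_eq] at this
    filter_upwards [this, eventually_ne W hx h₁ h₂] with p hp hne
    refine ⟨fun h => hne h.1, ?_⟩
    rw [Affine.slope_of_X_ne hne, div_eq_iff (sub_ne_zero.mpr hne)]
    simpa using hp.symm

/-- `P` represents the map `φ` on almost all points. -/
def Rep : (W⁄(FF W)).toAffine.Point → (Pt W → W.toAffine.Point) → Prop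
  | .zero, φ => ∀ᶠ p in cofinite, φ p = 0
  | .some x y _, φ => ∃ fx fy : Pt W → k, evFF W x = ↑fx ∧ evFF W y = ↑fy ∧
      ∀ᶠ p in cofinite, ∃ h, φ p = Affine.Point.some (fx p) (fy p) h

omit [DecidableEq k] in
lemma Rep.congr {P : (W⁄(FF W)).toAffine.Point} {φ ψ : Pt W → W.toAffine.Point} (h : Rep W P φ)
    (he : ∀ᶠ p in cofinite, φ p = ψ p) : Rep W P ψ := by
  rcases P with _ | ⟨x, y, hP⟩
  · filter_upwards [he, h] with p h1 h2
    rw [← h1, h2]
  · obtain ⟨fx, fy, hx, hy, hev⟩ := h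
    refine ⟨fx, fy, hx, hy, ?_⟩
    filter_upwards [hev, he] with p hp h1
    rwa [← h1]

lemma Rep.add {P Q : (W⁄(FF W)).toAffine.Point} {φ ψ : Pt W → W.toAffine.Point}
    (hP : Rep W P φ) (hQ : Rep W Q ψ) : Rep W (P + Q) (fun p => φ p + ψ p) := by
  rcases P with _ | ⟨x₁, y₁, n₁⟩
  · refine Rep.congr W (P := Affine.Point.zero + Q)
      (by rwa [← Affine.Point.zero_def, zero_add]) ?_
    filter_upwards [hP] with p hp
    rw [hp, zero_add]
  rcases Q with _ | ⟨x₂, y₂, n₂⟩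
  · refine Rep.congr W (P := Affine.Point.some x₁ y₁ n₁ + Affine.Point.zero)
      (by rwa [← Affine.Point.zero_def, add_zero]) ?_
    filter_upwards [hQ] with p hp
    rw [hp, add_zero]
  obtain ⟨f₁, g₁, h₁, k₁, ev₁⟩ := hP
  obtain ⟨f₂, g₂, h₂, k₂, ev₂⟩ := hQ
  by_cases hxy : x₁ = x₂ ∧ y₁ = (W⁄(FF W)).toAffine.negY x₂ y₂
  · rw [Affine.Point.add_of_Y_eq hxy.1 hxy.2]
    change ∀ᶠ p in cofinite, φ p + ψ p = 0
    filter_upwards [ev₁, ev₂, eventually_eq W hxy.1 h₁ h₂,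
      eventually_eq W hxy.2 k₁ (evFF_negY W h₂ k₂)] with p ⟨a, ha⟩ ⟨b, hb⟩ ex ey
    rw [ha, hb, Affine.Point.add_of_Y_eq ex ey]
  · rw [Affine.Point.add_some hxy]
    obtain ⟨fl, hl, evl⟩ := exists_evFF_slope W hxy n₁.1 n₂.1 h₁ h₂ k₁ k₂
    refine ⟨_, _, evFF_addX W h₁ h₂ hl, evFF_addY W h₁ h₂ k₁ hl, ?_⟩
    filter_upwards [ev₁, ev₂, evl] with p ⟨a, ha⟩ ⟨b, hb⟩ ⟨hne, hs⟩
    rw [ha, hb, Affine.Point.add_some hne]
    simp only [← hs]
    exact ⟨Affine.nonsingular_add a b hne, trivial⟩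

omit [DecidableEq k] in
lemma Rep.neg {P : (W⁄(FF W)).toAffine.Point} {φ : Pt W → W.toAffine.Point}
    (hP : Rep W P φ) : Rep W (-P) (fun p => -φ p) := by
  rcases P with _ | ⟨x, y, n⟩
  · rw [← Affine.Point.zero_def, Affine.Point.neg_zero]
    filter_upwards [hP] with p hp
    rw [hp, Affine.Point.neg_zero]
  · obtain ⟨fx, fy, hx, hy, hev⟩ := hP
    refine ⟨fx, _, hx, evFF_negY W hx hy, ?_⟩
    filter_upwards [hev] with p ⟨h, hp⟩
    rw [hp]
    exact ⟨_, rfl⟩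

omit [DecidableEq k] in
lemma rep_zero : Rep W 0 (fun _ => 0) := Eventually.of_forall fun _ => rfl

lemma Rep.zsmul {P : (W⁄(FF W)).toAffine.Point} {φ : Pt W → W.toAffine.Point}
    (hP : Rep W P φ) (n : ℤ) : Rep W (n • P) (fun p => n • φ p) := by
  induction n using Int.induction_on with
  | zero => simpa using rep_zero W
  | succ i ih => simpa [add_zsmul] using ih.add W hP
  | pred i ih =>
    have := ih.add W (hP.neg W)
    simpa only [sub_eq_add_neg, add_zsmul, neg_zsmul, one_zsmul] using this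

variable [W.IsElliptic]

/-- An affine point as a point. -/
def toPoint (p : Pt W) : W.toAffine.Point := Affine.Point.mk p.2

omit [DecidableEq k] in
lemma rep_genPt : Rep W (genPt W) (toPoint W) :=
  ⟨_, _, evFF_xF W, evFF_yF W, Eventually.of_forall fun _ => ⟨_, rfl⟩⟩

end Fermat.Agent.Isogeny
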