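import Fermat.Agent.EC.Isogeny.FrobeniusTorsion
import Fermat.Prelude.Def_FLTPrelim_Modularity

/-!
The Frobenius trace over the field with `q` elements is the point-count trace.
-/

noncomputable section

open Polynomial WeierstrassCurve

namespace Fermat.Agent.Isogeny

variable {k : Type*} [Field k] [IsAlgClosed k] [DecidableEq k] {q : ℕ} [Fact q.Prime] [CharP k q]
  (W₀ : WeierstrassCurve (ZMod q)) (f : ZMod q →+* k)

omit [IsAlgClosed k] [DecidableEq k] in
lemma map_iterateFrobenius_zmod :
    (W₀.map f).map (iterateFrobenius k q 1) = W₀.map f := by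
  rw [WeierstrassCurve.map_map]
  congr 1
  exact Subsingleton.elim _ _

omit [DecidableEq k] in
lemma range_eq_fixed : Set.range f = {x : k | x ^ q = x} := by
  have hc : {x : k | x ^ q = x}.ncard = q := by
    have := ncard_fixed (k := k) q 1 one_ne_zero
    rwa [pow_one] at this
  refine Set.eq_of_subset_of_ncard_le ?_ ?_
    (Set.finite_of_ncard_ne_zero (by rw [hc]; exact (Fact.out : q.Prime).ne_zero))
  · rintro _ ⟨z, rfl⟩
    change f z ^ q = f z
    rw [← map_pow, ZMod.pow_card]
  · rw [hc, ← Set.image_univ, Set.ncard_image_of_injective _ f.injective, Set.ncard_univ,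
      Nat.card_zmod]

/-- The kernel of `F - 1` consists of the rational points. -/
lemma card_ker_frobSub_eq :
    Nat.card (frobSub (W₀.map f) q 1 (map_iterateFrobenius_zmod W₀ f)).ker = W₀.card := by
  let i : W₀.toAffine.Point → (W₀.map f).toAffine.Point := fun P => match P with
    | .zero => 0
    | .some x y h =>
      .some (f x) (f y) ((Affine.map_nonsingular (W := W₀.toAffine) f.injective x y).mpr h)
  have hi : Function.Injective i := by
    rintro (_ | ⟨x, y, h⟩) (_ | ⟨x', y', h'⟩) he <;> simp only [i] at he
    · rfl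
    · exact absurd he.symm (Affine.Point.some_ne_zero _)
    · exact absurd he (Affine.Point.some_ne_zero _)
    · simp only [Affine.Point.some.injEq] at he ⊢
      exact ⟨f.injective he.1, f.injective he.2⟩
  have hrange : ((frobSub (W₀.map f) q 1 (map_iterateFrobenius_zmod W₀ f)).ker :
      Set (W₀.map f).toAffine.Point) = Set.range i := by
    ext R
    rw [SetLike.mem_coe, mem_ker_frobSub]
    constructor
    · intro hR
      rcases R with _ | ⟨x, y, h⟩
      · exact ⟨.zero, rfl⟩
      · rw [frobPt, endoPoint_some, Affine.Point.some.injEq, iterateFrobenius_def,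
          iterateFrobenius_def, pow_one] at hR
        obtain ⟨x₀, rfl⟩ : x ∈ Set.range f := by rw [range_eq_fixed]; exact hR.1
        obtain ⟨y₀, rfl⟩ : y ∈ Set.range f := by rw [range_eq_fixed]; exact hR.2
        exact ⟨.some x₀ y₀ ((Affine.map_nonsingular (W := W₀.toAffine) f.injective x₀ y₀).mp h),
          rfl⟩
    · rintro ⟨P, rfl⟩
      rcases P with _ | ⟨x, y, h⟩
      · exact map_zero _
      · simp only [i]
        rw [frobPt, endoPoint_some, Affine.Point.some.injEq, iterateFrobenius_def,
          iterateFrobenius_def, pow_one, ← map_pow, ← map_pow, ZMod.pow_card, ZMod.pow_card]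
        exact ⟨rfl, rfl⟩
  rw [WeierstrassCurve.card, ← Nat.card_range_of_injective hi, ← hrange]
  rfl

/-- The Frobenius trace on geometric points is the point-count trace. -/
lemma frobTrace_eq_traceOfFrobenius [(W₀.map f).IsElliptic] :
    frobTrace (W₀.map f) q 1 (map_iterateFrobenius_zmod W₀ f) = W₀.traceOfFrobenius := by
  rw [frobTrace, card_ker_frobSub_eq, WeierstrassCurve.traceOfFrobenius, Nat.card_zmod]
  simp

end Fermat.Agent.Isogeny
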