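import Fermat.Agent.EC.Isogeny.PointEndo
import Mathlib.FieldTheory.Finite.GaloisField
import Mathlib.GroupTheory.QuotientGroup.Basic
import Mathlib.GroupTheory.Coset.Card

/-!
The Frobenius endomorphism of an elliptic curve over a finite field: the degree of `F - m` is
`m² - a m + q` and `F² - a F + q = 0`, where `a = q + 1 - #ker (F - 1)`.
-/

noncomputable section

open Polynomial WeierstrassCurve Filter

namespace Fermat.Agent.Isogeny

lemma card_ker_comp {A B C : Type*} [AddCommGroup A] [AddCommGroup B] [AddCommGroup C]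
    (f : B →+ C) (g : A →+ B) (hg : Function.Surjective g) :
    Nat.card (f.comp g).ker = Nat.card f.ker * Nat.card g.ker := by
  let ψ : (f.comp g).ker →+ f.ker := (g.comp (f.comp g).ker.subtype).codRestrict f.ker fun x => x.2
  have hψ : Function.Surjective ψ := fun ⟨b, hb⟩ => by
    obtain ⟨a, rfl⟩ := hg b
    exact ⟨⟨a, hb⟩, rfl⟩
  rw [AddSubgroup.card_eq_card_quotient_mul_card_addSubgroup ψ.ker]
  congr 1
  · exact Nat.card_congr (QuotientAddGroup.quotientKerEquivOfSurjective ψ hψ).toEquiv
  · refine Nat.card_congr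
      { toFun := fun x => ⟨(x.1.1 : A), congrArg Subtype.val x.2⟩
        invFun := fun x => ⟨⟨x.1, by
          change f (g x.1) = 0
          rw [show g x.1 = 0 from x.2, map_zero]⟩, Subtype.ext x.2⟩
        left_inv := fun x => by rfl
        right_inv := fun x => by rfl }

variable {k : Type*} [Field k] [IsAlgClosed k] [DecidableEq k] (W : WeierstrassCurve k)
  [W.IsElliptic] (p r : ℕ) [Fact p.Prime] [CharP k p]
  (hW : W.map (iterateFrobenius k p r) = W)

/-- `F - 1` on points. -/
def frobSub : W.toAffine.Point →+ W.toAffine.Point := frobPt W p r hW - AddMonoidHom.id _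

/-- `F + 1` on points. -/
def frobAdd : W.toAffine.Point →+ W.toAffine.Point := frobPt W p r hW + AddMonoidHom.id _

omit [IsAlgClosed k] [W.IsElliptic] in
lemma mem_ker_frobSub {R : W.toAffine.Point} :
    R ∈ (frobSub W p r hW).ker ↔ frobPt W p r hW R = R := by
  rw [frobSub, AddMonoidHom.mem_ker, AddMonoidHom.sub_apply, AddMonoidHom.id_apply, sub_eq_zero]

omit [IsAlgClosed k] [W.IsElliptic] in
lemma mem_ker_frobAdd {R : W.toAffine.Point} :
    R ∈ (frobAdd W p r hW).ker ↔ frobPt W p r hW R = -R := by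
  rw [frobAdd, AddMonoidHom.mem_ker, AddMonoidHom.add_apply, AddMonoidHom.id_apply,
    add_eq_zero_iff_eq_neg]

/-- The point representing `F - 1`. -/
def ptSub : (W⁄(FF W)).toAffine.Point := frobFF W p r hW (genPt W) - genPt W

/-- The point representing `F + 1`. -/
def ptAdd : (W⁄(FF W)).toAffine.Point := frobFF W p r hW (genPt W) + genPt W

omit [IsAlgClosed k] in
lemma rep_ptSub : Rep W (ptSub W p r hW) (frobSub W p r hW ∘ toPoint W) := by
  refine Rep.congr W (P := ptSub W p r hW) ?_ (Eventually.of_forall fun a => rfl)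
  rw [ptSub, sub_eq_add_neg]
  refine (((rep_genPt W).frob W p r hW).add W ((rep_genPt W).neg W)).congr W
    (Eventually.of_forall fun a => ?_)
  simp [frobSub, sub_eq_add_neg]

omit [IsAlgClosed k] in
lemma rep_ptAdd : Rep W (ptAdd W p r hW) (frobAdd W p r hW ∘ toPoint W) :=
  ((rep_genPt W).frob W p r hW).add W (rep_genPt W)

omit [IsAlgClosed k] [DecidableEq k] in
lemma ncard_fixed [IsAlgClosed k] (hr : r ≠ 0) :
    {x : k | x ^ p ^ r = x}.ncard = p ^ r := by
  classical
  have hq : 1 < p ^ r := Nat.one_lt_pow hr (Fact.out : p.Prime).one_lt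
  have hdeg := FiniteField.X_pow_card_sub_X_natDegree_eq k hq
  have hne := FiniteField.X_pow_card_sub_X_ne_zero k hq
  have hnd : (X ^ p ^ r - X : k[X]).roots.Nodup :=
    nodup_roots (galois_poly_separable p (p ^ r) (dvd_pow_self p hr))
  have hset : {x : k | x ^ p ^ r = x} = ↑(X ^ p ^ r - X : k[X]).roots.toFinset := by
    ext x
    simp [mem_roots hne, sub_eq_zero]
  rw [hset, Set.ncard_coe_finset, Multiset.toFinset_card_of_nodup hnd,
    IsAlgClosed.card_roots_eq_natDegree, hdeg]

/-- The count of the points of the curve and of its twist. -/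
lemma card_ker_add_card_ker (hr : r ≠ 0) :
    Nat.card (frobSub W p r hW).ker + Nat.card (frobAdd W p r hW).ker = 2 * p ^ r + 2 ∧
      Finite (frobSub W p r hW).ker ∧ Finite (frobAdd W p r hW).ker := by
  set q := p ^ r with hq
  set Fix := {x : k | x ^ q = x} with hFix
  set Sp : Set (Pt W) := {a | a.1.1 ∈ Fix ∧ a.1.2 ^ q = a.1.2} with hSp
  set Sm : Set (Pt W) := {a | a.1.1 ∈ Fix ∧ a.1.2 ^ q = W.toAffine.negY a.1.1 a.1.2} with hSm
  have hFixfin : Fix.Finite := Set.finite_of_ncard_ne_zero (by
    rw [hFix, hq, ncard_fixed p r hr]; exact pow_ne_zero r (Fact.out : p.Prime).ne_zero)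
  have hTfin : {a : Pt W | a.1.1 ∈ Fix}.Finite :=
    (hFixfin.biUnion fun z _ => finite_fibre W z).subset
      fun a (ha : a.1.1 ∈ Fix) => Set.mem_biUnion ha rfl
  have hfrob : ∀ a : Pt W, frobPt W p r hW (toPoint W a) =
      endoPoint W (iterateFrobenius k p r) hW (toPoint W a) := fun a => rfl
  have hker₁ : ((frobSub W p r hW).ker : Set W.toAffine.Point) = insert 0 (toPoint W '' Sp) := by
    ext R
    rw [SetLike.mem_coe, mem_ker_frobSub]
    rcases eq_zero_or_toPoint W R with rfl | ⟨a, rfl⟩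
    · simp
    · simp only [Set.mem_insert_iff, toPoint_ne_zero, (toPoint_injective W).mem_set_image,
        false_or]
      rw [hfrob, toPoint, Affine.Point.mk, endoPoint_some, Affine.Point.some.injEq]
      simp [hSp, hFix, hq, iterateFrobenius_def]
  have hker₂ : ((frobAdd W p r hW).ker : Set W.toAffine.Point) = insert 0 (toPoint W '' Sm) := by
    ext R
    rw [SetLike.mem_coe, mem_ker_frobAdd]
    rcases eq_zero_or_toPoint W R with rfl | ⟨a, rfl⟩
    · simp
    · simp only [Set.mem_insert_iff, toPoint_ne_zero, (toPoint_injective W).mem_set_image,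
        false_or]
      rw [hfrob, toPoint, Affine.Point.mk, endoPoint_some, Affine.Point.neg_some,
        Affine.Point.some.injEq]
      simp [hSm, hFix, hq, iterateFrobenius_def]
  have hSpfin : Sp.Finite := hTfin.subset fun a ha => ha.1
  have hSmfin : Sm.Finite := hTfin.subset fun a ha => ha.1
  have hc : ∀ S : Set (Pt W), S.Finite →
      (insert (0 : W.toAffine.Point) (toPoint W '' S)).ncard = S.ncard + 1 := fun S hS => by
    rw [Set.ncard_insert_of_notMem (by rintro ⟨a, -, ha⟩; exact toPoint_ne_zero W a ha)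
      (hS.image _),
      Set.ncard_image_of_injective _ (toPoint_injective W)]
  have e₁ : Nat.card (frobSub W p r hW).ker = Sp.ncard + 1 := by
    rw [← hc Sp hSpfin, ← hker₁, ← Nat.card_coe_set_eq]; rfl
  have e₂ : Nat.card (frobAdd W p r hW).ker = Sm.ncard + 1 := by
    rw [← hc Sm hSmfin, ← hker₂, ← Nat.card_coe_set_eq]; rfl
  refine ⟨?_, Nat.finite_of_card_ne_zero (by omega), Nat.finite_of_card_ne_zero (by omega)⟩
  choose sel hsel using exists_Y W
  let f₁ : k → Pt W := fun z => ⟨(z, sel z), hsel z⟩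
  let f₂ : k → Pt W := fun z => ⟨(z, W.toAffine.negY z (sel z)),
    (Affine.equation_neg _ _).mpr (hsel z)⟩
  have hinj₁ : Function.Injective f₁ := fun a b hab => congrArg (fun a : Pt W => a.1.1) hab
  have hinj₂ : Function.Injective f₂ := fun a b hab => congrArg (fun a : Pt W => a.1.1) hab
  have hunion : f₁ '' Fix ∪ f₂ '' Fix = Sp ∪ Sm := by
    ext a
    simp only [Set.mem_union, Set.mem_image, hSp, hSm, Set.mem_ofPred_eq]
    constructor
    · intro h
      have hx : a.1.1 ∈ Fix := by rcases h with ⟨z, hz, rfl⟩ | ⟨z, hz, rfl⟩ <;> exact hz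
      have hx' : a.1.1 ^ q = a.1.1 := hx
      have heq : W.toAffine.Equation a.1.1 (a.1.2 ^ q) := by
        have := Affine.Equation.map (iterateFrobenius k p r) a.2
        rw [show W.toAffine.map (iterateFrobenius k p r) = W.toAffine from hW,
          iterateFrobenius_def, iterateFrobenius_def] at this
        rwa [← hq, hx'] at this
      rcases Affine.Y_eq_of_X_eq heq a.2 rfl with h1 | h1
      · exact Or.inl ⟨hx, h1⟩
      · exact Or.inr ⟨hx, h1⟩
    · intro h
      have hx : a.1.1 ∈ Fix := by rcases h with h | h <;> exact h.1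
      rcases Affine.Y_eq_of_X_eq a.2 (hsel a.1.1) rfl with h1 | h1
      · exact Or.inl ⟨_, hx, Subtype.ext (Prod.ext rfl h1.symm)⟩
      · exact Or.inr ⟨_, hx, Subtype.ext (Prod.ext rfl h1.symm)⟩
  have hinter : f₁ '' Fix ∩ f₂ '' Fix = Sp ∩ Sm := by
    have hW2 : f₁ '' Fix ∩ f₂ '' Fix =
        {a | a.1.1 ∈ Fix ∧ a.1.2 = W.toAffine.negY a.1.1 a.1.2} := by
      ext a
      simp only [Set.mem_inter_iff, Set.mem_image, Set.mem_ofPred_eq]
      constructor
      · rintro ⟨⟨z, hz, rfl⟩, z', -, he⟩
        obtain rfl : z' = z := congrArg (fun a : Pt W => a.1.1) he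
        exact ⟨hz, (congrArg (fun a : Pt W => a.1.2) he).symm⟩
      · rintro ⟨hx, hy⟩
        have : a.1.2 = sel a.1.1 := by
          rcases Affine.Y_eq_of_X_eq a.2 (hsel a.1.1) rfl with h1 | h1
          · exact h1
          · rw [hy, h1, Affine.negY_negY]
        exact ⟨⟨_, hx, Subtype.ext (Prod.ext rfl this.symm)⟩,
          _, hx, Subtype.ext (Prod.ext rfl (by
            change W.toAffine.negY a.1.1 (sel a.1.1) = a.1.2
            rw [← this]; exact hy.symm))⟩
    rw [hW2]
    ext a
    simp only [Set.mem_inter_iff, hSp, hSm, Set.mem_ofPred_eq]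
    constructor
    · rintro ⟨hx, hy⟩
      have hx' : a.1.1 ^ q = a.1.1 := hx
      have heq : W.toAffine.Equation a.1.1 (a.1.2 ^ q) := by
        have := Affine.Equation.map (iterateFrobenius k p r) a.2
        rw [show W.toAffine.map (iterateFrobenius k p r) = W.toAffine from hW,
          iterateFrobenius_def, iterateFrobenius_def] at this
        rwa [← hq, hx'] at this
      have h1 : a.1.2 ^ q = a.1.2 := by
        rcases Affine.Y_eq_of_X_eq heq a.2 rfl with h1 | h1
        · exact h1
        · rwa [← hy] at h1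
      exact ⟨⟨hx, h1⟩, hx, h1.trans hy⟩
    · rintro ⟨⟨hx, h1⟩, -, h2⟩
      exact ⟨hx, h1.symm.trans h2⟩
  have t1 := Set.ncard_union_add_ncard_inter (f₁ '' Fix) (f₂ '' Fix)
    (hFixfin.image _) (hFixfin.image _)
  have t2 := Set.ncard_union_add_ncard_inter Sp Sm hSpfin hSmfin
  rw [hunion, hinter, t2, Set.ncard_image_of_injective _ hinj₁,
    Set.ncard_image_of_injective _ hinj₂, hFix, hq, ncard_fixed p r hr] at t1
  omega

/-- The degree function at a pair of multiples. -/
lemma ptSub_ptAdd_degree (hr : r ≠ 0) :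
    ht W (ptSub W p r hW) = Nat.card (frobSub W p r hW).ker ∧
      ht W (ptAdd W p r hW) = Nat.card (frobAdd W p r hW).ker ∧
      Function.Surjective (frobSub W p r hW) := by
  obtain ⟨hsum, hf1, hf2⟩ := card_ker_add_card_ker W p r hW hr
  have hF := frobFF_mem W p r hW (genPt_mem W)
  have hm1 : ptSub W p r hW ∈ oddPts W := sub_mem hF (genPt_mem W)
  have hm2 : ptAdd W p r hW ∈ oddPts W := add_mem hF (genPt_mem W)
  have := infinite_Point W
  have hne : ∀ {P : (W⁄(FF W)).toAffine.Point} {φ : W.toAffine.Point →+ W.toAffine.Point},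
      P ∈ oddPts W → Rep W P (φ ∘ toPoint W) → Finite φ.ker → ht W P ≠ 0 := by
    intro P φ hP hrep hfin h0
    rw [hom_eq_zero_of_ht_eq_zero W hP h0 hrep, AddMonoidHom.ker_zero] at hfin
    have : Finite W.toAffine.Point :=
      Finite.of_surjective (fun x : (⊤ : AddSubgroup W.toAffine.Point) => (x : W.toAffine.Point))
        fun x => ⟨⟨x, trivial⟩, rfl⟩
    exact _root_.not_finite W.toAffine.Point
  obtain ⟨⟨s, hs⟩, hsurj⟩ := card_ker_and_surjective W hm1
    (hne hm1 (rep_ptSub W p r hW) hf1) (rep_ptSub W p r hW)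
  obtain ⟨⟨t, ht'⟩, -⟩ := card_ker_and_surjective W hm2
    (hne hm2 (rep_ptAdd W p r hW) hf2) (rep_ptAdd W p r hW)
  have hpar := ht_parallelogram W hF (genPt_mem W)
  rw [ht_frobFF W p r hW (genPt_mem W), ht_genPt, mul_one, mul_one, ← ptSub, ← ptAdd,
    ← hs, ← ht', ← hsum] at hpar
  have := ringExpChar.expChar k
  have h1 : 1 ≤ ringExpChar k ^ s := Nat.one_le_pow _ _ (expChar_pos k _)
  have h2 : 1 ≤ ringExpChar k ^ t := Nat.one_le_pow _ _ (expChar_pos k _)
  have h3 := Nat.le_mul_of_pos_right (Nat.card (frobSub W p r hW).ker) h1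
  have h4 := Nat.le_mul_of_pos_right (Nat.card (frobAdd W p r hW).ker) h2
  exact ⟨by omega, by omega, hsurj⟩

end Fermat.Agent.Isogeny
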