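import Fermat.Agent.EC.Isogeny.FrobeniusCount
import Mathlib.LinearAlgebra.Charpoly.ToMatrix
import Mathlib.LinearAlgebra.Matrix.Charpoly.Coeff
import Mathlib.LinearAlgebra.Determinant
import Mathlib.LinearAlgebra.Trace

/-!
Trace and determinant of Frobenius on torsion: for an elliptic curve over the field with `q`
elements and a prime `ℓ`, Frobenius acts on a `2`-dimensional space of `ℓ`-torsion with trace
`a = q + 1 - #E(𝔽_q)` and determinant `q`.
-/

noncomputable section

open Polynomial WeierstrassCurve Filter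

namespace Fermat.Agent.Isogeny

variable {k : Type*} [Field k] [IsAlgClosed k] [DecidableEq k] (W : WeierstrassCurve k)
  [W.IsElliptic] (p r : ℕ) [Fact p.Prime] [CharP k p]
  (hW : W.map (iterateFrobenius k p r) = W) (hr : r ≠ 0)

/-- The trace `q + 1 - #E(𝔽_q)`. -/
def frobTrace : ℤ := (p ^ r : ℕ) + 1 - (Nat.card (frobSub W p r hW).ker : ℤ)

/-- The Frobenius image of the generic point. -/
def frobGen : oddPts W := ⟨frobFF W p r hW (genPt W), frobFF_mem W p r hW (genPt_mem W)⟩

omit [DecidableEq k] in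
lemma htZ_frobGen : htZ W (frobGen W p r hW) = (p ^ r : ℕ) := by
  simp [htZ, frobGen, ht_frobFF W p r hW (genPt_mem W), ht_genPt]

include hr in
/-- The degree of `F + m`. -/
lemma htZ_frobGen_add_zsmul (m : ℤ) :
    htZ W (frobGen W p r hW + m • genO W) =
      (p ^ r : ℕ) + m * frobTrace W p r hW + m ^ 2 := by
  obtain ⟨h1, h2, -⟩ := ptSub_ptAdd_degree W p r hW hr
  obtain ⟨hsum, -, -⟩ := card_ker_add_card_ker W p r hW hr
  have hs : htZ W (frobGen W p r hW + genO W) =
      (Nat.card (frobAdd W p r hW).ker : ℤ) := by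
    rw [← h2]; rfl
  rw [quad_add_zsmul (htZ_parallelogram W), hs, htZ_frobGen, htZ_genO, mul_one, frobTrace]
  have h' : (Nat.card (frobSub W p r hW).ker : ℤ) + Nat.card (frobAdd W p r hW).ker =
      2 * (p ^ r : ℕ) + 2 := by exact_mod_cast hsum
  linear_combination m * h'

include hr in
/-- `F² - a F + q = 0`. -/
theorem frobPt_sq_eq (R : W.toAffine.Point) :
    frobPt W p r hW (frobPt W p r hW R) =
      frobTrace W p r hW • frobPt W p r hW R - ((p ^ r : ℕ) : ℤ) • R := by
  set a := frobTrace W p r hW with ha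
  set q : ℤ := ((p ^ r : ℕ) : ℤ) with hq
  have hW2 := add_add_map_iterateFrobenius W p r hW
  have hr2 : r + r ≠ 0 := by omega
  set u := frobGen W p (r + r) hW2 with hu
  set v := frobGen W p r hW with hv
  set w := genO W with hw
  have H := htZ_parallelogram W
  -- the degrees
  have hu0 : htZ W u = q ^ 2 := by
    rw [hu, htZ_frobGen, hq, pow_add]; push_cast; ring
  have huv : ∀ m : ℤ, htZ W (u + m • v) = q * (q + m * a + m ^ 2) := fun m => by
    rw [← htZ_frobGen_add_zsmul W p r hW hr m]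
    have : ((u + m • v : oddPts W) : (W⁄(FF W)).toAffine.Point) =
        frobFF W p r hW ((v + m • w : oddPts W) : (W⁄(FF W)).toAffine.Point) := by
      push_cast
      rw [map_add, map_zsmul, hu, hv, hw]
      simp only [frobGen, genO]
      rw [frobFF_frobFF]
    rw [htZ, htZ, this, ht_frobFF W p r hW (v + m • w).2, hq]
    push_cast; ring
  have htwo : (Nat.card (frobSub W p (r + r) hW2).ker : ℤ) =
      Nat.card (frobAdd W p r hW).ker * Nat.card (frobSub W p r hW).ker := by
    have : frobSub W p (r + r) hW2 = (frobAdd W p r hW).comp (frobSub W p r hW) := by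
      ext P
      simp only [frobSub, frobAdd, AddMonoidHom.sub_apply, AddMonoidHom.comp_apply,
        AddMonoidHom.add_apply, AddMonoidHom.id_apply, map_sub]
      rw [frobPt_frobPt W p r hW P]
      abel
    rw [this, card_ker_comp _ _ (ptSub_ptAdd_degree W p r hW hr).2.2]
    push_cast; rfl
  obtain ⟨hsum, -, -⟩ := card_ker_add_card_ker W p r hW hr
  have hsum' : (Nat.card (frobSub W p r hW).ker : ℤ) + Nat.card (frobAdd W p r hW).ker =
      2 * q + 2 := by rw [hq]; exact_mod_cast hsum
  have hb : frobTrace W p (r + r) hW2 = a ^ 2 - 2 * q := by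
    rw [frobTrace, htwo, ha, frobTrace, ← hq, pow_add]
    push_cast
    simp only [hq] at hsum' ⊢
    push_cast at hsum' ⊢
    linear_combination -(Nat.card (frobSub W p r hW).ker : ℤ) * hsum'
  have hvw : htZ W ((-a) • v + q • w) = q ^ 2 := by
    have hvw' := htZ_frobGen_add_zsmul W p r hW hr
    rw [add_comm, quad_add_zsmul H, quad_zsmul H, hw, htZ_genO, ← hw, add_comm (q • w),
      hvw' q, htZ_frobGen, ← hq, ← ha]
    ring
  have hzero : htZ W (u + (-a) • v + q • w) = 0 := by
    rw [quad_add_three H, huv, hvw, hu, htZ_frobGen_add_zsmul W p (r + r) hW2 hr2, hb, ← hu, hu0,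
      quad_zsmul H, quad_zsmul H, hw, htZ_genO, hv, htZ_frobGen, ← hq, pow_add]
    push_cast
    rw [hq]
    push_cast
    ring
  -- the represented endomorphism
  let φ : W.toAffine.Point →+ W.toAffine.Point :=
    frobPt W p (r + r) hW2 + ((DistribSMul.toAddMonoidHom W.toAffine.Point (-a)).comp
      (frobPt W p r hW)) + DistribSMul.toAddMonoidHom W.toAffine.Point q
  have hrep : Rep W ((u + (-a) • v + q • w : oddPts W) : (W⁄(FF W)).toAffine.Point)
      (φ ∘ toPoint W) := by
    push_cast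
    exact ((((rep_genPt W).frob W p (r + r) hW2).add W
      (((rep_genPt W).frob W p r hW).zsmul W (-a))).add W ((rep_genPt W).zsmul W q))
  have hφ : φ = 0 := hom_eq_zero_of_ht_eq_zero W (u + (-a) • v + q • w).2
    (by rw [htZ] at hzero; exact_mod_cast hzero) hrep
  have := DFunLike.congr_fun hφ R
  simp only [φ, AddMonoidHom.add_apply, AddMonoidHom.comp_apply, AddMonoidHom.zero_apply,
    DistribSMul.toAddMonoidHom_apply, neg_smul] at this
  rw [frobPt_frobPt W p r hW R] at this
  rw [← sub_eq_zero, ← this]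
  abel

include hr in
/-- If `F - c` kills a subgroup of `N` points, then `N ∣ c² - a c + q`. -/
lemma card_dvd_of_le_ker (c : ℤ) (H : AddSubgroup W.toAffine.Point)
    (hH : ∀ R ∈ H, frobPt W p r hW R = c • R) :
    (Nat.card H : ℤ) ∣ c ^ 2 - frobTrace W p r hW * c + (p ^ r : ℕ) := by
  have hdeg := htZ_frobGen_add_zsmul W p r hW hr (-c)
  have hmem := (frobGen W p r hW + (-c) • genO W).2
  let φ : W.toAffine.Point →+ W.toAffine.Point :=
    frobPt W p r hW + DistribSMul.toAddMonoidHom W.toAffine.Point (-c)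
  have hrep : Rep W ((frobGen W p r hW + (-c) • genO W : oddPts W) : (W⁄(FF W)).toAffine.Point)
      (φ ∘ toPoint W) := by
    push_cast
    exact ((rep_genPt W).frob W p r hW).add W ((rep_genPt W).zsmul W (-c))
  have hval : c ^ 2 - frobTrace W p r hW * c + (p ^ r : ℕ) =
      (ht W ((frobGen W p r hW + (-c) • genO W : oddPts W) : (W⁄(FF W)).toAffine.Point) : ℤ) := by
    rw [← htZ, hdeg]; ring
  rw [hval, Int.natCast_dvd_natCast]
  by_cases h0 : ht W ((frobGen W p r hW + (-c) • genO W : oddPts W) :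
      (W⁄(FF W)).toAffine.Point) = 0
  · rw [h0]; exact dvd_zero _
  obtain ⟨⟨s, hs⟩, -⟩ := card_ker_and_surjective W hmem h0 hrep
  rw [← hs]
  refine Dvd.dvd.mul_right (AddSubgroup.card_dvd_of_le fun R hR => ?_) _
  rw [AddMonoidHom.mem_ker, AddMonoidHom.add_apply, DistribSMul.toAddMonoidHom_apply, neg_smul,
    hH R hR, add_neg_cancel]

omit [IsAlgClosed k] [DecidableEq k] in
/-- Cayley–Hamilton in dimension two. -/
lemma sq_apply_of_finrank_two {F : Type*} [Field F] {M : Type*} [AddCommGroup M] [Module F M]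
    [Module.Finite F M] (h : Module.finrank F M = 2) (f : Module.End F M) :
    LinearMap.charpoly f = X ^ 2 - C (LinearMap.trace F M f) * X + C (LinearMap.det f) ∧
    ∀ x, f (f x) = LinearMap.trace F M f • f x - LinearMap.det f • x := by
  let b := Module.finBasisOfFinrankEq F M h
  have hcp : LinearMap.charpoly f =
      X ^ 2 - C (LinearMap.trace F M f) * X + C (LinearMap.det f) := by
    rw [← LinearMap.charpoly_toMatrix f b, Matrix.charpoly_fin_two,
      LinearMap.trace_eq_matrix_trace F b f, LinearMap.det_toMatrix b f]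
  refine ⟨hcp, fun x => ?_⟩
  have := LinearMap.congr_fun (LinearMap.aeval_self_charpoly f) x
  rw [hcp] at this
  simp only [map_add, map_sub, map_mul, aeval_C, aeval_X, LinearMap.add_apply,
    LinearMap.sub_apply, Module.End.mul_apply, Module.algebraMap_end_apply, LinearMap.zero_apply,
    pow_two] at this
  rw [← sub_eq_zero, ← this]
  abel

include hr in
/-- Trace and determinant of the Frobenius on a group of `ℓ`-torsion points of order `ℓ ^ 2`. -/
theorem trace_det_frob {ℓ : ℕ} [Fact ℓ.Prime] {M : Type*} [AddCommGroup M]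
    [Module (ZMod ℓ) M] [Module.Finite (ZMod ℓ) M] (hM : Nat.card M = ℓ ^ 2)
    (j : M →+ W.toAffine.Point)
    (hj : Function.Injective j) (f : Module.End (ZMod ℓ) M)
    (hf : ∀ m, j (f m) = frobPt W p r hW (j m)) :
    LinearMap.trace (ZMod ℓ) M f = (frobTrace W p r hW : ZMod ℓ) ∧
      LinearMap.det f = ((p ^ r : ℕ) : ZMod ℓ) ∧
      LinearMap.charpoly f = X ^ 2 - C (frobTrace W p r hW : ZMod ℓ) * X
        + C ((p ^ r : ℕ) : ZMod ℓ) := by
  have hℓ : ℓ.Prime := Fact.out
  have hMfin : Finite M := Nat.finite_of_card_ne_zero (by rw [hM]; exact pow_ne_zero 2 hℓ.ne_zero)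
  have h2 : Module.finrank (ZMod ℓ) M = 2 := by
    have := Module.natCard_eq_pow_finrank (K := ZMod ℓ) (V := M)
    rw [hM, Nat.card_zmod] at this
    exact (Nat.pow_right_injective hℓ.two_le this).symm
  obtain ⟨hcp, hsq⟩ := sq_apply_of_finrank_two h2 f
  suffices key : LinearMap.trace (ZMod ℓ) M f = (frobTrace W p r hW : ZMod ℓ) ∧
      LinearMap.det f = ((p ^ r : ℕ) : ZMod ℓ) by
    exact ⟨key.1, key.2, by rw [hcp, key.1, key.2]⟩
  clear hcp
  set a := frobTrace W p r hW with ha
  set q := p ^ r with hq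
  set t := LinearMap.trace (ZMod ℓ) M f with ht
  set D := LinearMap.det f
  have hrel : ∀ m, f (f m) = (a : ZMod ℓ) • f m - (q : ZMod ℓ) • m := fun m => by
    apply hj
    rw [hf, hf, map_sub, frobPt_sq_eq W p r hW hr]
    simp only [Int.cast_smul_eq_zsmul, map_zsmul, hf, Nat.cast_smul_eq_nsmul, map_nsmul,
      ← ha, ← hq]
  have hlin : ∀ m, (t - (a : ZMod ℓ)) • f m = (D - (q : ZMod ℓ)) • m := fun m => by
    have h1 := (hsq m).symm.trans (hrel m)
    rw [← sub_eq_zero] at h1 ⊢
    rw [sub_smul, sub_smul, ← h1]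
    abel
  by_cases hta : t = a
  · refine ⟨hta, ?_⟩
    obtain ⟨m, hm⟩ : ∃ m : M, m ≠ 0 := by
      have : Nontrivial M := (Finite.one_lt_card_iff_nontrivial).mp
        (by rw [hM]; exact Nat.one_lt_pow two_ne_zero hℓ.one_lt)
      exact exists_ne 0
    have := hlin m
    rw [hta, sub_self, zero_smul, eq_comm, smul_eq_zero, sub_eq_zero] at this
    exact this.resolve_right hm
  exfalso
  obtain ⟨c, hfc⟩ : ∃ c : ZMod ℓ, f = c • LinearMap.id := by
    refine ⟨(D - q) / (t - a), LinearMap.ext fun m => ?_⟩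
    have := congrArg (fun z => (t - (a : ZMod ℓ))⁻¹ • z) (hlin m)
    simp only [smul_smul, inv_mul_cancel₀ (sub_ne_zero.mpr hta), one_smul] at this
    rw [this, LinearMap.smul_apply, LinearMap.id_apply, div_eq_inv_mul]
  have ht2 : t = 2 * c := by
    rw [ht, hfc, map_smul, LinearMap.trace_id, h2, smul_eq_mul]; push_cast; ring
  obtain ⟨C₀, rfl⟩ := ZMod.intCast_surjective c
  have hdvd : ∀ C : ℤ, (C : ZMod ℓ) = C₀ → ((ℓ ^ 2 : ℕ) : ℤ) ∣ C ^ 2 - a * C + q := fun C hC => by
    have hcard : Nat.card j.range = ℓ ^ 2 := by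
      rw [← hM]; exact Nat.card_congr (AddMonoidHom.ofInjective hj).symm.toEquiv
    have := card_dvd_of_le_ker W p r hW hr C j.range ?_
    · rwa [hcard] at this
    · rintro R ⟨m, rfl⟩
      rw [← hf, ← map_zsmul, hfc, LinearMap.smul_apply, LinearMap.id_apply, ← hC,
        Int.cast_smul_eq_zsmul]
  obtain ⟨u, hu⟩ := hdvd C₀ rfl
  obtain ⟨v, hv⟩ := hdvd (C₀ + ℓ) (by push_cast; simp)
  push_cast at hu hv
  have hl : (ℓ : ℤ) ∣ 2 * C₀ - a := by
    refine ⟨v - u - 1, ?_⟩
    have : (ℓ : ℤ) * (2 * C₀ - a) = ℓ * (ℓ * (v - u - 1)) := by linear_combination hv - hu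
    exact mul_left_cancel₀ (by exact_mod_cast hℓ.ne_zero) this
  apply hta
  rw [← (ZMod.intCast_zmod_eq_zero_iff_dvd _ ℓ), Int.cast_sub, sub_eq_zero, Int.cast_mul] at hl
  rw [ht2, ← hl]
  norm_num

end Fermat.Agent.Isogeny
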