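import Fermat.Agent.EC.Isogeny.Degree
import Fermat.Agent.EC.Isogeny.Parallelogram
import Fermat.Agent.EC.Isogeny.TorsionCard
import Mathlib.Algebra.CharP.Frobenius
import Mathlib.FieldTheory.Finite.Basic

/-!
The `p ^ r`-power Frobenius on points, on function-field points, and its basic properties.
-/

noncomputable section

open Polynomial WeierstrassCurve Filter

namespace Fermat.Agent.Isogeny

section endo

variable {K : Type*} [Field K] [DecidableEq K] (V : WeierstrassCurve K)

/-- The endomorphism of points induced by a field endomorphism fixing the coefficients. -/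
def endoPoint (f : K →+* K) (hf : V.map f = V) : V.toAffine.Point →+ V.toAffine.Point where
  toFun P := match P with
    | .zero => 0
    | .some x y h => .some (f x) (f y) (by
        have := (Affine.map_nonsingular (W := V.toAffine) f.injective x y).mpr h
        rwa [show V.toAffine.map f = V.toAffine from hf] at this)
  map_zero' := rfl
  map_add' := by
    have hneg : ∀ x y, V.toAffine.negY (f x) (f y) = f (V.toAffine.negY x y) := fun x y => by
      conv_lhs => rw [← show V.toAffine.map f = V.toAffine from hf]
      exact V.toAffine.map_negY f x y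
    rintro (_ | ⟨x₁, y₁, h₁⟩) (_ | ⟨x₂, y₂, h₂⟩)
    any_goals rfl
    by_cases hxy : x₁ = x₂ ∧ y₁ = V.toAffine.negY x₂ y₂
    · rw [Affine.Point.add_of_Y_eq hxy.1 hxy.2]
      exact (Affine.Point.add_of_Y_eq (congrArg f hxy.1) (by rw [hneg, hxy.2])).symm
    · rw [Affine.Point.add_some hxy]
      simp only
      rw [Affine.Point.add_some fun h => hxy ⟨f.injective h.1, f.injective (hneg x₂ y₂ ▸ h.2)⟩,
        Affine.Point.some.injEq]
      have e1 := V.toAffine.map_addX f x₁ x₂ (V.toAffine.slope x₁ x₂ y₁ y₂)
      have e2 := V.toAffine.map_addY f x₁ y₁ x₂ (V.toAffine.slope x₁ x₂ y₁ y₂)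
      have e3 := V.toAffine.map_slope f x₁ x₂ y₁ y₂
      rw [show V.toAffine.map f = V.toAffine from hf] at e1 e2 e3
      rw [e3]
      exact ⟨e1.symm, e2.symm⟩

@[simp] lemma endoPoint_some (f : K →+* K) (hf : V.map f = V) {x y : K} (h) :
    endoPoint V f hf (.some x y h) = .some (f x) (f y) (by
        have := (Affine.map_nonsingular (W := V.toAffine) f.injective x y).mpr h
        rwa [show V.toAffine.map f = V.toAffine from hf] at this) := rfl

lemma endoPoint_comp (f g fg : K →+* K) (hf : V.map f = V) (hg : V.map g = V)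
    (hfg : V.map fg = V) (h : ∀ x, fg x = f (g x)) (P : V.toAffine.Point) :
    endoPoint V fg hfg P = endoPoint V f hf (endoPoint V g hg P) := by
  rcases P with _ | ⟨x, y, hP⟩
  · rfl
  · simp [h]

end endo

variable {k : Type*} [Field k] (W : WeierstrassCurve k) (p r : ℕ) [Fact p.Prime] [CharP k p]

instance instExpCharFF : ExpChar (FF W) p :=
  expChar_of_injective_ringHom (algebraMap k (FF W)).injective p

variable (hW : W.map (iterateFrobenius k p r) = W)
include hW

lemma map_iterateFrobenius_FF :
    (W⁄(FF W)).map (iterateFrobenius (FF W) p r) = W⁄(FF W) := by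
  have h := congrArg (fun V : WeierstrassCurve k => V.map (algebraMap k (FF W))) hW
  simp only [WeierstrassCurve.map_map] at h
  rw [WeierstrassCurve.baseChange, WeierstrassCurve.map_map, ← RingHom.iterateFrobenius_comm]
  exact h

lemma add_add_map_iterateFrobenius : W.map (iterateFrobenius k p (r + r)) = W := by
  conv_rhs => rw [← hW, ← hW, WeierstrassCurve.map_map]
  congr 1
  ext x
  exact iterateFrobenius_add_apply k p r r x

section points

variable [DecidableEq k]

/-- Frobenius on points. -/
def frobPt : W.toAffine.Point →+ W.toAffine.Point := endoPoint W (iterateFrobenius k p r) hW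

lemma frobPt_frobPt (R : W.toAffine.Point) :
    frobPt W p (r + r) (add_add_map_iterateFrobenius W p r hW) R =
      frobPt W p r hW (frobPt W p r hW R) :=
  endoPoint_comp W _ _ _ hW hW _ (iterateFrobenius_add_apply k p r r) R

end points

/-- Frobenius on function-field points. -/
def frobFF : (W⁄(FF W)).toAffine.Point →+ (W⁄(FF W)).toAffine.Point :=
  endoPoint (W⁄(FF W)) (iterateFrobenius (FF W) p r) (map_iterateFrobenius_FF W p r hW)

lemma frobFF_frobFF (P : (W⁄(FF W)).toAffine.Point) :
    frobFF W p (r + r) (add_add_map_iterateFrobenius W p r hW) P =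
      frobFF W p r hW (frobFF W p r hW P) :=
  endoPoint_comp (W⁄(FF W)) _ _ _ (map_iterateFrobenius_FF W p r hW)
    (map_iterateFrobenius_FF W p r hW) _ (iterateFrobenius_add_apply (FF W) p r r) P

lemma frobFF_mem {P : (W⁄(FF W)).toAffine.Point} (hP : P ∈ oddPts W) :
    frobFF W p r hW P ∈ oddPts W := by
  rw [mem_oddPts] at hP ⊢
  rw [← map_neg, ← hP]
  rcases P with _ | ⟨x, y, h⟩
  · rfl
  · rw [frobFF, endoPoint_some, Affine.Point.map_some, Affine.Point.map_some, endoPoint_some,
      Affine.Point.some.injEq]
    simp only [iterateFrobenius_def, map_pow, and_self]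

lemma ht_frobFF [W.IsElliptic] [IsAlgClosed k] {P : (W⁄(FF W)).toAffine.Point} (hP : P ∈ oddPts W) :
    ht W (frobFF W p r hW P) = p ^ r * ht W P := by
  rcases P with _ | ⟨x, y, h⟩
  · simp [← Affine.Point.zero_def, frobFF]
  · rw [frobFF, endoPoint_some, ht_some, ht_some, iterateFrobenius_def]
    nth_rw 1 [x_eq_of_mem_oddPts W hP]
    rw [← map_pow, QuadraticAlgebra.algebraMap_eq, hgt_pow]

/-- Composition with Frobenius preserves representation by function-field points. -/
lemma Rep.frob [DecidableEq k] {P : (W⁄(FF W)).toAffine.Point} {φ : Pt W → W.toAffine.Point}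
    (h : Rep W P φ) : Rep W (frobFF W p r hW P) (fun a => frobPt W p r hW (φ a)) := by
  rcases P with _ | ⟨x, y, hP⟩
  · rw [frobFF, ← Affine.Point.zero_def, map_zero]
    change ∀ᶠ a in cofinite, frobPt W p r hW (φ a) = 0
    filter_upwards [h] with a ha
    rw [ha, map_zero]
  · obtain ⟨fx, fy, hx, hy, hev⟩ := h
    rw [frobFF, endoPoint_some]
    refine ⟨fun a => fx a ^ p ^ r, fun a => fy a ^ p ^ r, ?_, ?_, ?_⟩
    · rw [iterateFrobenius_def, map_pow, hx, ← Germ.coe_pow]; rfl
    · rw [iterateFrobenius_def, map_pow, hy, ← Germ.coe_pow]; rfl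
    · filter_upwards [hev] with a ⟨hn, ha⟩
      rw [ha, frobPt, endoPoint_some]
      exact ⟨_, rfl⟩

end Fermat.Agent.Isogeny
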